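import Mathlib.NumberTheory.DirichletCharacter.Basic

set_option autoImplicit false
set_option linter.unusedSectionVars false

/-!
# Splitting a Dirichlet character modulo `a b`, `(a, b) = 1`
-/

namespace Fermat.Agent.Twist

variable {R : Type*} [CommRing R] [IsDomain R] {a b : ℕ} (hab : Nat.Coprime a b)
  (χ : DirichletCharacter R (a * b))

/-- the first component -/
noncomputable def charFst : DirichletCharacter R a where
  toFun u := χ ((ZMod.chineseRemainder hab).symm (u, 1))
  map_one' := by
    rw [← Prod.one_eq_mk, map_one, map_one]
  map_mul' u v := by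
    rw [← map_mul, ← map_mul, Prod.mk_mul_mk, mul_one]
  map_nonunit' u hu := by
    apply χ.map_nonunit
    intro h
    apply hu
    have h1 := h.map (ZMod.chineseRemainder hab)
    rw [RingEquiv.apply_symm_apply, Prod.isUnit_iff] at h1
    exact h1.1

/-- the second component -/
noncomputable def charSnd : DirichletCharacter R b where
  toFun u := χ ((ZMod.chineseRemainder hab).symm (1, u))
  map_one' := by
    rw [← Prod.one_eq_mk, map_one, map_one]
  map_mul' u v := by
    rw [← map_mul, ← map_mul, Prod.mk_mul_mk, mul_one]
  map_nonunit' u hu := by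
    apply χ.map_nonunit
    intro h
    apply hu
    have h1 := h.map (ZMod.chineseRemainder hab)
    rw [RingEquiv.apply_symm_apply, Prod.isUnit_iff] at h1
    exact h1.2

theorem charFst_apply (u : ZMod a) :
    charFst hab χ u = χ ((ZMod.chineseRemainder hab).symm (u, 1)) := rfl

theorem charSnd_apply (u : ZMod b) :
    charSnd hab χ u = χ ((ZMod.chineseRemainder hab).symm (1, u)) := rfl

theorem char_split (x : ℤ) : χ (x : ZMod (a * b)) = charSnd hab χ (x : ZMod b) *
    charFst hab χ (x : ZMod a) := by
  rw [charFst_apply, charSnd_apply, ← map_mul, ← map_mul, Prod.mk_mul_mk, one_mul, mul_one]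
  congr 1
  rw [RingEquiv.eq_symm_apply, map_intCast]
  rfl

end Fermat.Agent.Twist
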