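import Fermat.Agent.Twist.Inj
import Fermat.Agent.Twist.Chars
import Fermat.Agent.TWMod.Spec

set_option autoImplicit false
set_option linter.unusedSectionVars false

/-!
# `SpecTwist`: the twist operator for a character of squarefree conductor
-/

open CongruenceSubgroup Fermat.Agent.Top Fermat.Agent.TWMod Matrix.SpecialLinearGroup
open scoped MatrixGroups

namespace Fermat.Agent.Twist

section Trivial

variable {N : ℕ} {χ : DirichletCharacter ℂ N}

/-- Cocycles for the trivial character are homomorphisms. -/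
noncomputable def homOfZ (h1 : ∀ γ, kap χ γ = 1) : Z1 (kap χ) ℂ →ₗ[ℂ] (Additive (Gamma0 N) →+ ℂ) where
  toFun f :=
    { toFun := fun γ => f.1 γ.toMul
      map_zero' := Z1_one f
      map_add' := fun γ γ' => by
        rw [toMul_add, Z1_mul, h1, one_smul] }
  map_add' f g := by ext; rfl
  map_smul' r f := by ext; rfl

theorem homOfZ_apply (h1 : ∀ γ, kap χ γ = 1) (f : Z1 (kap χ) ℂ) (γ : Gamma0 N) :
    homOfZ h1 f (Additive.ofMul γ) = f.1 γ := rfl

/-- Twisted cohomology for the trivial character. -/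
noncomputable def homOfH (h1 : ∀ γ, kap χ γ = 1) : H1 (kap χ) ℂ →ₗ[ℂ] (Additive (Gamma0 N) →+ ℂ) :=
  Submodule.liftQ _ (homOfZ h1) (by
    rintro _ ⟨a, rfl⟩
    rw [LinearMap.mem_ker]
    refine AddMonoidHom.ext fun γ => ?_
    change (dB (kap χ) ℂ a).1 γ.toMul = 0
    rw [dB_apply, h1, one_smul, sub_self])

theorem homOfH_cls (h1 : ∀ γ, kap χ γ = 1) (f : Z1 (kap χ) ℂ) :
    homOfH h1 (cls (kap χ) ℂ f) = homOfZ h1 f := rfl

theorem homOfH_injective (h1 : ∀ γ, kap χ γ = 1) : Function.Injective (homOfH h1) := by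
  rw [injective_iff_map_eq_zero]
  intro x hx
  obtain ⟨f, rfl⟩ := cls_surjective _ _ x
  rw [homOfH_cls] at hx
  have : f = 0 := Subtype.ext (funext fun γ => DFunLike.congr_fun hx (Additive.ofMul γ))
  rw [this, map_zero]

theorem homOfH_hk (h1 : ∀ γ, kap χ γ = 1) {ℓ : ℕ} (hℓ : ℓ.Prime) (hw1 : ∀ i, hw χ ℓ i = 1)
    (x : H1 (kap χ) ℂ) : homOfH h1 (hk χ ℂ hℓ x) = hop N ⟨ℓ, hℓ⟩ (homOfH h1 x) := by
  obtain ⟨f, rfl⟩ := cls_surjective _ _ x
  rw [hk, opH_cls, homOfH_cls, homOfH_cls]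
  refine AddMonoidHom.ext fun γ' => ?_
  obtain ⟨γ, rfl⟩ : ∃ γ, Additive.ofMul γ = γ' := ⟨γ'.toMul, rfl⟩
  change (opZ ℂ (isWeight_hw χ hℓ) f).1 γ = (hreps N hℓ).op (homOfZ h1 f) (Additive.ofMul γ)
  rw [opZ_apply, Reps.op_apply]
  refine Finset.sum_congr rfl fun i _ => ?_
  rw [hw1, one_smul]
  rfl

theorem kap_eq_one_of_one (h : χ = 1) (γ : Gamma0 N) : kap χ γ = 1 := by
  obtain ⟨-, hd⟩ := isUnit_cast_of_mem γ
  rw [kap_eq_sq, h, MulChar.one_apply hd, one_pow]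

theorem hw_eq_one_of_one (h : χ = 1) {ℓ : ℕ} (hℓ : ℓ.Prime) (hℓN : ¬ ℓ ∣ N) (i : HI N ℓ) :
    hw χ ℓ i = 1 := by
  have hu : IsUnit ((ℓ : ℕ) : ZMod N) :=
    (ZMod.isUnit_iff_coprime _ _).mpr ((Nat.Prime.coprime_iff_not_dvd hℓ).mpr hℓN)
  obtain ⟨i, hi⟩ := i
  change wt χ (HM ℓ i) = 1
  rw [wt, h, inv_one]
  cases i with
  | none =>
    rw [HM_none]
    simp only [Matrix.of_apply, Matrix.cons_val', Matrix.cons_val_zero, Matrix.cons_val_one,
      Matrix.cons_val_fin_one, Int.cast_natCast, Int.cast_one, map_one, mul_one]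
    exact MulChar.one_apply hu
  | some j =>
    rw [HM_some]
    simp only [Matrix.of_apply, Matrix.cons_val', Matrix.cons_val_zero, Matrix.cons_val_one,
      Matrix.cons_val_fin_one, Int.cast_natCast, Int.cast_one, map_one, one_mul]
    exact MulChar.one_apply hu

end Trivial

section Step

/-- The data of a twisting step at `q`. -/
structure TwStep (N q c' : ℕ) (χ : DirichletCharacter ℂ N) where
  /-- the remaining character -/
  χ' : DirichletCharacter ℂ (N * q)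
  /-- the `q`-part -/
  ψ : DirichletCharacter ℂ q
  rel : TwRel N q χ χ' ψ
  ne : ψ ≠ 1
  hyp : TwHyp (N * q) c' χ'
  /-- the cofactor of `q` -/
  n : ℕ
  hn : N = q * n
  cop : Nat.Coprime q n
  /-- a witness of ramification -/
  d : ℤ
  hd : IsCoprime d (N : ℤ)
  hdn : (n : ℤ) ∣ d - 1
  hχ : χ (d : ZMod N) ^ 2 ≠ 1

theorem exists_step {N q c' : ℕ} (hq : q.Prime) {χ : DirichletCharacter ℂ N}
    (h : TwHyp N (q * c') χ) : Nonempty (TwStep N q c' χ) := by
  obtain ⟨hN0, hcN, hsqf, hcop, hsix, ⟨hcN', χ₀, hχ₀⟩, hram⟩ := h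
  obtain ⟨m, hm⟩ := hcN
  have hc0 : 0 < q * c' := Nat.pos_of_dvd_of_pos ⟨m, hm⟩ hN0
  have hc'0 : 0 < c' := Nat.pos_of_mul_pos_left hc0
  have hm0 : 0 < m := by
    rcases Nat.eq_zero_or_pos m with rfl | h
    · omega
    · exact h
  have hNm : N / (q * c') = m := by rw [hm, Nat.mul_div_cancel_left _ hc0]
  rw [hNm] at hcop
  have hqc' : Nat.Coprime q c' := Nat.coprime_of_squarefree_mul hsqf
  have hqm : Nat.Coprime q m := hcop.coprime_dvd_left (dvd_mul_right _ _)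
  have hc'm : Nat.Coprime c' m := hcop.coprime_dvd_left (dvd_mul_left _ _)
  have hN : N = q * (c' * m) := by rw [hm]; ring
  have hqn : Nat.Coprime q (c' * m) := hqc'.mul_right hqm
  have hNq : N / q = c' * m := by rw [hN, Nat.mul_div_cancel_left _ hq.pos]
  have hc'Nq : c' ∣ N * q := ⟨q * m * q, by rw [hN]; ring⟩
  set ψ := charFst hqc' χ₀ with hψ
  set χ₁ := charSnd hqc' χ₀ with hχ₁
  set χ' : DirichletCharacter ℂ (N * q) := DirichletCharacter.changeLevel hc'Nq χ₁ with hχ'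
  have hrel : TwRel N q χ χ' ψ := by
    intro x hx
    have hx' : IsCoprime x ((N * q : ℕ) : ℤ) := by
      push_cast
      exact hx.mul_right (hx.of_isCoprime_of_dvd_right ⟨c' * m, by rw [hN]; push_cast; ring⟩)
    rw [hχ', DirichletCharacter.changeLevel_eq_cast_of_dvd' _ _ hx', hχ₀,
      DirichletCharacter.changeLevel_eq_cast_of_dvd' _ _ hx, char_split hqc']
  -- ramification at `q`
  obtain ⟨d, hd1, hd2, hd3⟩ := hram q hq (dvd_mul_right _ _)
  rw [hNq] at hd2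
  have hdZ : IsCoprime ((d : ℕ) : ℤ) (N : ℤ) := Nat.isCoprime_iff_coprime.mpr hd1
  have hdn : ((c' * m : ℕ) : ℤ) ∣ ((d : ℕ) : ℤ) - 1 := by
    have := (Nat.modEq_iff_dvd.mp hd2.symm)
    simpa using this
  refine ⟨⟨χ', ψ, hrel, ?_, ⟨Nat.mul_pos hN0 hq.pos, hc'Nq, ?_, ?_, ?_, ⟨hc'Nq, χ₁, rfl⟩, ?_⟩, c' * m, hN,
    hqn, d, hdZ, hdn, by simpa using hd3⟩⟩
  · -- `ψ ≠ 1`
    intro hψ1
    apply hd3
    have h1 := hrel d hdZ
    have h2 : χ' ((d : ℤ) : ZMod (N * q)) = 1 := by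
      have hx' : IsCoprime ((d : ℕ) : ℤ) ((N * q : ℕ) : ℤ) := by
        push_cast
        exact hdZ.mul_right (hdZ.of_isCoprime_of_dvd_right ⟨c' * m, by rw [hN]; push_cast; ring⟩)
      rw [hχ', DirichletCharacter.changeLevel_eq_cast_of_dvd' _ _ hx']
      have h3 : (((d : ℕ) : ℤ) : ZMod c') = 1 := by
        have h4 : (c' : ℤ) ∣ ((d : ℕ) : ℤ) - 1 := by
          refine dvd_trans ⟨(m : ℤ), ?_⟩ hdn
          push_cast
          ring
        have h5 := (ZMod.intCast_zmod_eq_zero_iff_dvd _ _).mpr h4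
        push_cast at h5 ⊢
        exact sub_eq_zero.mp h5
      rw [h3, map_one]
    have h6 : IsUnit (((d : ℕ) : ℤ) : ZMod q) := by
      rw [Int.cast_natCast]
      exact (ZMod.isUnit_iff_coprime _ _).mpr (hd1.coprime_dvd_right ⟨c' * m, hN⟩)
    rw [h2, hψ1, MulChar.one_apply h6, one_mul] at h1
    rw [Int.cast_natCast] at h1
    rw [h1, one_pow]
  · exact hsqf.squarefree_of_dvd (dvd_mul_left _ _)
  · have : N * q / c' = q * m * q := by
      rw [hN, show q * (c' * m) * q = c' * (q * m * q) by ring, Nat.mul_div_cancel_left _ hc'0]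
    rw [this]
    exact (hqc'.symm.mul_right hc'm).mul_right hqc'.symm
  · exact hsix.coprime_dvd_left (dvd_mul_left _ _)
  · -- ramification at the other primes
    intro p hp hpc'
    obtain ⟨u, hu1, hu2, hu3⟩ := hram p hp (hpc'.mul_left _)
    obtain ⟨k, hk⟩ := hpc'
    have hpk : Nat.Coprime p k := by
      have : Squarefree (p * k) := hk ▸ hsqf.squarefree_of_dvd (dvd_mul_left _ _)
      exact Nat.coprime_of_squarefree_mul this
    have hpq : Nat.Coprime p q := (hqc'.coprime_dvd_right ⟨k, hk⟩).symm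
    have hpm : Nat.Coprime p m := hc'm.coprime_dvd_left ⟨k, hk⟩
    have hNp : N / p = q * (k * m) := by
      rw [hN, hk, show q * (p * k * m) = p * (q * (k * m)) by ring,
        Nat.mul_div_cancel_left _ hp.pos]
    have hNqp : N * q / p = q * (k * m) * q := by
      rw [hN, hk, show q * (p * k * m) * q = p * (q * (k * m) * q) by ring,
        Nat.mul_div_cancel_left _ hp.pos]
    have hcp : Nat.Coprime p (q * (k * m) * q) :=
      ((hpq.mul_right (hpk.mul_right hpm))).mul_right hpq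
    obtain ⟨v, hv1, hv2⟩ := Nat.chineseRemainder hcp u 1
    rw [hNp] at hu2
    have hvu : v ≡ u [MOD N] := by
      have e : N = p * (q * (k * m)) := by rw [hN, hk]; ring
      rw [e]
      refine (Nat.modEq_and_modEq_iff_modEq_mul (hpq.mul_right (hpk.mul_right hpm))).mp
        ⟨hv1, ?_⟩
      exact (Nat.ModEq.of_mul_right q hv2).trans hu2.symm
    have hvN : Nat.Coprime v N := by
      rw [Nat.Coprime, hvu.gcd_eq]
      exact hu1
    have hvNq : Nat.Coprime v (N * q) := hvN.mul_right (hvN.coprime_dvd_right ⟨c' * m, hN⟩)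
    refine ⟨v, hvNq, by rw [hNqp]; exact hv2, ?_⟩
    intro hcon
    apply hu3
    have h1 := hrel v (Nat.isCoprime_iff_coprime.mpr hvN)
    have h2 : (((v : ℕ) : ℤ) : ZMod q) = 1 := by
      rw [Int.cast_natCast]
      have := (ZMod.natCast_eq_natCast_iff v 1 q).mpr (Nat.ModEq.of_mul_left _ hv2)
      simpa using this
    rw [h2, map_one, mul_one, Int.cast_natCast, Int.cast_natCast] at h1
    have h3 : ((u : ℕ) : ZMod N) = ((v : ℕ) : ZMod N) :=
      (ZMod.natCast_eq_natCast_iff _ _ _).mpr hvu.symm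
    rw [h3, h1]
    exact hcon

/-- One step: the twisting operator at `q`. -/
theorem TwStep.exists_tw {N q c' : ℕ} (hq : q.Prime) {χ : DirichletCharacter ℂ N} (hN : 0 < N)
    (S : TwStep N q c' χ) : ∃ tw : H1 (kap χ) ℂ →ₗ[ℂ] H1 (kap S.χ') ℂ, Function.Injective tw ∧
      ∀ (ℓ : ℕ) (hℓ : ℓ.Prime), ¬ ℓ ∣ N → ∀ x, tw (hk χ ℂ hℓ x) = hk S.χ' ℂ hℓ (tw x) := by
  have : Fact q.Prime := ⟨hq⟩
  have : NeZero N := ⟨hN.ne'⟩
  have hqN : q ∣ N := ⟨S.n, S.hn⟩
  exact ⟨tw1 ℂ hqN S.rel, tw1_injective hqN S.hn S.cop S.rel S.ne S.hd S.hdn S.hχ,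
    fun ℓ hℓ hℓN x => tw1_hk ℂ hqN S.rel hℓ hℓN x⟩

end Step

theorem specTwist_aux : ∀ (c N : ℕ) (χ : DirichletCharacter ℂ N), TwHyp N c χ → ∀ K : ℕ, K = N * c →
    ∃ tw : H1 (kap χ) ℂ →ₗ[ℂ] (Additive (Gamma0 K) →+ ℂ), Function.Injective tw ∧
      ∀ (ℓ : ℕ) (hℓ : ℓ.Prime), ¬ ℓ ∣ N → ∀ x, tw (hk χ ℂ hℓ x) = hop K ⟨ℓ, hℓ⟩ (tw x) := by
  intro c
  induction c using Nat.strong_induction_on with
  | _ c ih =>
    intro N χ h K hK
    rcases Nat.lt_or_ge 1 c with hc | hc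
    · obtain ⟨q, hq, c', hc'⟩ := Nat.exists_prime_and_dvd hc.ne'
      subst hc'
      obtain ⟨S⟩ := exists_step hq h
      obtain ⟨tw, htw1, htw2⟩ := S.exists_tw hq h.pos
      have hc'0 : 0 < c' := by
        rcases Nat.eq_zero_or_pos c' with rfl | h
        · omega
        · exact h
      obtain ⟨tw', htw1', htw2'⟩ := ih c' (by nlinarith [hq.two_le]) (N * q) S.χ' S.hyp K
        (by rw [hK]; ring)
      refine ⟨tw'.comp tw, htw1'.comp htw1, fun ℓ hℓ hℓN x => ?_⟩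
      rw [LinearMap.comp_apply, htw2 ℓ hℓ hℓN, LinearMap.comp_apply]
      refine htw2' ℓ hℓ (fun hd => hℓN ?_) _
      rcases hℓ.dvd_mul.mp hd with h1 | h1
      · exact h1
      · exact h1.trans ⟨S.n, S.hn⟩
    · have hc0 : 0 < c := Nat.pos_of_dvd_of_pos h.dvd h.pos
      have hc1 : c = 1 := by omega
      subst hc1
      rw [mul_one] at hK
      subst hK
      have : NeZero K := ⟨h.pos.ne'⟩
      have hχ : χ = 1 := (DirichletCharacter.factorsThrough_one_iff χ).mp h.fac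
      exact ⟨homOfH (kap_eq_one_of_one hχ), homOfH_injective _, fun ℓ hℓ hℓN x =>
        homOfH_hk _ hℓ (hw_eq_one_of_one hχ hℓ hℓN) x⟩

/-- **(A2a): the twist operator.** -/
theorem specTwist : SpecTwist := fun N c χ h => specTwist_aux c N χ h (N * c) rfl

end Fermat.Agent.Twist
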