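import Fermat.Agent.TWMod.Cocycle

set_option autoImplicit false
set_option linter.unusedSectionVars false

/-!
# Transfer operators between twisted cocycles of two groups
-/

namespace Fermat.Agent.Twist

open Finset Fermat.Agent.Top Fermat.Agent.TWMod

/-- A finite system `δ i` of elements of `G` with `δ i Γ₂ ⊆ ⋃ Γ₁ δ j`. -/
structure BR {Γ₁ Γ₂ G : Type*} [Group Γ₁] [Group Γ₂] [Group G] (ι₁ : Γ₁ →* G) (ι₂ : Γ₂ →* G)
    (I : Type*) where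
  /-- the representatives -/
  δ : I → G
  /-- the permutation attached to an element of `Γ₂` -/
  σ : Γ₂ → I → I
  /-- the factor attached to an element of `Γ₂` -/
  c : Γ₂ → I → Γ₁
  inj : Function.Injective ι₁
  mul_eq : ∀ γ i, δ i * ι₂ γ = ι₁ (c γ i) * δ (σ γ i)
  σ_one : ∀ i, σ 1 i = i
  σ_mul : ∀ γ γ' i, σ (γ * γ') i = σ γ' (σ γ i)

namespace BR

variable {Γ₁ Γ₂ Γ₃ G : Type*} [Group Γ₁] [Group Γ₂] [Group Γ₃] [Group G] {ι₁ : Γ₁ →* G}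
  {ι₂ : Γ₂ →* G} {ι₃ : Γ₃ →* G} {I I' : Type*}

/-- the case of one group -/
def ofReps {Γ : Type*} [Group Γ] {ι : Γ →* G} (R : Reps ι I) : BR ι ι I where
  δ := R.δ
  σ := R.σ
  c := R.c
  inj := R.inj
  mul_eq := R.mul_eq
  σ_one := R.σ_one
  σ_mul := R.σ_mul

variable (R : BR ι₁ ι₂ I) (R' : BR ι₂ ι₃ I')

theorem c_mul (γ γ' : Γ₂) (i : I) : R.c (γ * γ') i = R.c γ i * R.c γ' (R.σ γ i) := by
  apply R.inj
  have h1 := R.mul_eq (γ * γ') i
  rw [R.σ_mul, map_mul, ← mul_assoc, R.mul_eq γ i, mul_assoc, R.mul_eq γ', ← mul_assoc] at h1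
  rw [map_mul]
  exact (mul_right_cancel h1).symm

theorem c_one (i : I) : R.c 1 i = 1 := by
  have h := R.c_mul 1 1 i
  rw [R.σ_one, mul_one] at h
  simpa using h

/-- The permutation attached to an element of `Γ₂`. -/
def perm (γ : Γ₂) : Equiv.Perm I where
  toFun := R.σ γ
  invFun := R.σ γ⁻¹
  left_inv i := by rw [← R.σ_mul, mul_inv_cancel, R.σ_one]
  right_inv i := by rw [← R.σ_mul, inv_mul_cancel, R.σ_one]

@[simp] theorem perm_apply (γ : Γ₂) (i : I) : R.perm γ i = R.σ γ i := rfl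

/-- Composition. -/
def comp : BR ι₁ ι₃ (I × I') where
  δ x := R.δ x.1 * R'.δ x.2
  σ γ x := (R.σ (R'.c γ x.2) x.1, R'.σ γ x.2)
  c γ x := R.c (R'.c γ x.2) x.1
  inj := R.inj
  mul_eq γ x := by
    rw [mul_assoc, R'.mul_eq, ← mul_assoc, R.mul_eq, mul_assoc]
  σ_one x := by rw [R'.c_one, R.σ_one, R'.σ_one]
  σ_mul γ γ' x := by rw [R'.c_mul, R.σ_mul, R'.σ_mul]

@[simp] theorem comp_δ (x : I × I') : (R.comp R').δ x = R.δ x.1 * R'.δ x.2 := rfl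

end BR

section Op

variable {Γ₁ Γ₂ Γ₃ G : Type*} [Group Γ₁] [Group Γ₂] [Group Γ₃] [Group G] {ι₁ : Γ₁ →* G}
  {ι₂ : Γ₂ →* G} {ι₃ : Γ₃ →* G} {I I' : Type*} [Fintype I] [Fintype I']
variable {Λ : Type*} [CommRing Λ] {κ₁ : Γ₁ →* Λ} {κ₂ : Γ₂ →* Λ} {κ₃ : Γ₃ →* Λ}
variable {A : Type*} [AddCommGroup A] [Module Λ A]

/-- Compatible weights. -/
def IsWB (R : BR ι₁ ι₂ I) (κ₁ : Γ₁ →* Λ) (κ₂ : Γ₂ →* Λ) (w : I → Λ) : Prop :=
  ∀ γ i, w i * κ₁ (R.c γ i) = κ₂ γ * w (R.σ γ i)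

variable {R : BR ι₁ ι₂ I} {R' : BR ι₂ ι₃ I'} {w : I → Λ} (hw : IsWB R κ₁ κ₂ w) {w' : I' → Λ}
  (hw' : IsWB R' κ₂ κ₃ w')

theorem sum_perm' (R : BR ι₁ ι₂ I) (γ : Γ₂) (F : I → A) : ∑ i, F (R.σ γ i) = ∑ i, F i :=
  Equiv.sum_comp (R.perm γ) F

variable (A) in
/-- The transfer operator on cocycles. -/
def opB : Z1 κ₁ A →ₗ[Λ] Z1 κ₂ A where
  toFun f := ⟨fun γ ↦ ∑ i, w i • f.1 (R.c γ i), by
    intro γ γ'
    have h : ∀ i, w i • f.1 (R.c (γ * γ') i) =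
        w i • f.1 (R.c γ i) + κ₂ γ • (w (R.σ γ i) • f.1 (R.c γ' (R.σ γ i))) := by
      intro i
      rw [R.c_mul, Z1_mul f, smul_add, ← mul_smul, hw γ i, mul_smul]
    change ∑ i, w i • f.1 (R.c (γ * γ') i) =
      ∑ i, w i • f.1 (R.c γ i) + κ₂ γ • ∑ i, w i • f.1 (R.c γ' i)
    rw [Finset.sum_congr rfl fun i _ ↦ h i, Finset.sum_add_distrib, ← Finset.smul_sum,
      sum_perm' R γ (fun i ↦ w i • f.1 (R.c γ' i))]⟩
  map_add' f g := by
    ext γ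
    simp [Finset.sum_add_distrib, smul_add]
  map_smul' r f := by
    ext γ
    simp only [SetLike.val_smul, Pi.smul_apply, RingHom.id_apply, Finset.smul_sum]
    exact Finset.sum_congr rfl fun i _ ↦ smul_comm _ _ _

theorem opB_apply (f : Z1 κ₁ A) (γ : Γ₂) : (opB A hw f).1 γ = ∑ i, w i • f.1 (R.c γ i) := rfl

theorem opB_dB (a : A) : opB A hw (dB κ₁ A a) = dB κ₂ A ((∑ i, w i) • a) := by
  refine Subtype.ext (funext fun γ ↦ ?_)
  rw [opB_apply, dB_apply]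
  have h : ∀ i, w i • (dB κ₁ A a).1 (R.c γ i) = κ₂ γ • (w (R.σ γ i) • a) - w i • a := by
    intro i
    rw [dB_apply, smul_sub, ← mul_smul, hw γ i, mul_smul]
  rw [Finset.sum_congr rfl fun i _ ↦ h i, Finset.sum_sub_distrib, ← Finset.smul_sum,
    sum_perm' R γ (fun i ↦ w i • a), ← Finset.sum_smul]

variable (A) in
/-- The transfer operator on cohomology. -/
def opBH : H1 κ₁ A →ₗ[Λ] H1 κ₂ A :=
  Submodule.mapQ _ _ (opB A hw) (by
    rintro _ ⟨a, rfl⟩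
    exact ⟨(∑ i, w i) • a, (opB_dB hw a).symm⟩)

@[simp] theorem opBH_cls (f : Z1 κ₁ A) : opBH A hw (cls κ₁ A f) = cls κ₂ A (opB A hw f) := rfl

theorem IsWB.comp (hw : IsWB R κ₁ κ₂ w) (hw' : IsWB R' κ₂ κ₃ w') :
    IsWB (R.comp R') κ₁ κ₃ (fun x ↦ w x.1 * w' x.2) := by
  intro γ x
  change w x.1 * w' x.2 * κ₁ (R.c (R'.c γ x.2) x.1) =
    κ₃ γ * (w (R.σ (R'.c γ x.2) x.1) * w' (R'.σ γ x.2))
  rw [mul_right_comm, hw, mul_right_comm, mul_comm (κ₂ _), hw']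
  ring

theorem opB_comp (f : Z1 κ₁ A) : opB A (hw.comp hw') f = opB A hw' (opB A hw f) := by
  refine Subtype.ext (funext fun γ ↦ ?_)
  rw [opB_apply, opB_apply, Fintype.sum_prod_type_right]
  refine Finset.sum_congr rfl fun i' _ ↦ ?_
  rw [opB_apply, Finset.smul_sum]
  refine Finset.sum_congr rfl fun i _ ↦ ?_
  rw [← mul_smul, mul_comm (w' i')]
  rfl

theorem opBH_comp (x : H1 κ₁ A) : opBH A (hw.comp hw') x = opBH A hw' (opBH A hw x) := by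
  obtain ⟨f, rfl⟩ := cls_surjective _ _ x
  rw [opBH_cls, opBH_cls, opBH_cls, opB_comp]

/-- the case of one group -/
theorem IsWB.ofReps {Γ : Type*} [Group Γ] {ι : Γ →* G} {R : Reps ι I} {κ : Γ →* Λ}
    (h : IsWeight R κ w) : IsWB (BR.ofReps R) κ κ w := h

theorem opBH_ofReps {Γ : Type*} [Group Γ] {ι : Γ →* G} {R : Reps ι I} {κ : Γ →* Λ}
    (h : IsWeight R κ w) (x : H1 κ A) : opBH A (IsWB.ofReps h) x = opH A h x := by
  obtain ⟨f, rfl⟩ := cls_surjective _ _ x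
  rfl

/-- Two equivalent weighted systems of representatives define the same operator on cohomology. -/
theorem opBH_congr {R : BR ι₁ ι₂ I} {R'' : BR ι₁ ι₂ I'} {w : I → Λ} (hw : IsWB R κ₁ κ₂ w)
    {w' : I' → Λ} (hw' : IsWB R'' κ₁ κ₂ w')
    (uniq : ∀ (g : Γ₁) (i j : I), ι₁ g * R.δ i = R.δ j → i = j)
    (uniq' : ∀ (g : Γ₁) (i j : I'), ι₁ g * R''.δ i = R''.δ j → i = j)
    (he : ∀ i, ∃ (g : Γ₁) (j : I'), R.δ i = ι₁ g * R''.δ j ∧ w i * κ₁ g = w' j)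
    (hcard : Fintype.card I = Fintype.card I') (x : H1 κ₁ A) :
    opBH A hw x = opBH A hw' x := by
  obtain ⟨f, rfl⟩ := cls_surjective _ _ x
  choose g e he hwe using he
  have hinj : Function.Injective e := by
    intro i j hij
    refine uniq (g j * (g i)⁻¹) i j ?_
    rw [he i, he j, hij, map_mul, map_inv]
    group
  have hbij : Function.Bijective e := (Fintype.bijective_iff_injective_and_card e).mpr ⟨hinj, hcard⟩
  rw [opBH_cls, opBH_cls, cls_eq_iff]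
  refine ⟨- ∑ i, w i • f.1 (g i), Subtype.ext (funext fun γ ↦ ?_)⟩
  have key : ∀ i, ι₁ (R.c γ i * g (R.σ γ i)) * R''.δ (e (R.σ γ i)) =
      ι₁ (g i * R''.c γ (e i)) * R''.δ (R''.σ γ (e i)) := by
    intro i
    rw [map_mul, mul_assoc, ← he, ← R.mul_eq, he i, mul_assoc, R''.mul_eq, map_mul, mul_assoc]
  have h1 : ∀ i, e (R.σ γ i) = R''.σ γ (e i) := by
    intro i
    refine uniq' ((g i * R''.c γ (e i))⁻¹ * (R.c γ i * g (R.σ γ i))) _ _ ?_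
    rw [map_mul, mul_assoc, key i, map_inv]
    group
  have h2 : ∀ i, R.c γ i * g (R.σ γ i) = g i * R''.c γ (e i) := by
    intro i
    have h3 := key i
    rw [h1 i] at h3
    exact R.inj (mul_right_cancel h3)
  have h3 : ∀ i, w i • f.1 (R.c γ i) + κ₂ γ • (w (R.σ γ i) • f.1 (g (R.σ γ i))) =
      w i • f.1 (g i) + w' (e i) • f.1 (R''.c γ (e i)) := by
    intro i
    have h4 := congrArg (fun y ↦ w i • f.1 y) (h2 i)
    simp only [Z1_mul f, smul_add, ← mul_smul, hwe] at h4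
    rw [hw γ i] at h4
    rw [← mul_smul]
    exact h4
  have h5 : ∑ i, (w i • f.1 (R.c γ i) + κ₂ γ • (w (R.σ γ i) • f.1 (g (R.σ γ i)))) =
      ∑ i, (w i • f.1 (g i) + w' (e i) • f.1 (R''.c γ (e i))) :=
    Finset.sum_congr rfl fun i _ ↦ h3 i
  rw [Finset.sum_add_distrib, Finset.sum_add_distrib, ← Finset.smul_sum,
    sum_perm' R γ (fun i ↦ w i • f.1 (g i))] at h5
  have h6 : ∑ i, w' (e i) • f.1 (R''.c γ (e i)) = ∑ i, w' i • f.1 (R''.c γ i) :=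
    Equiv.sum_comp (Equiv.ofBijective e hbij) (fun i ↦ w' i • f.1 (R''.c γ i))
  rw [h6] at h5
  rw [dB_apply, Submodule.coe_sub, Pi.sub_apply, opB_apply, opB_apply, smul_neg]
  rw [sub_neg_eq_add, neg_add_eq_sub, sub_eq_sub_iff_add_eq_add, h5]

end Op

end Fermat.Agent.Twist
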