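import Fermat.Agent.Twist.TwHecke
import Mathlib.NumberTheory.JacobiSum.Basic
import Mathlib.NumberTheory.ModularForms.CongruenceSubgroups

set_option autoImplicit false
set_option linter.unusedSectionVars false

/-!
# Injectivity of the twist
-/

open CongruenceSubgroup Fermat.Agent.Top Fermat.Agent.TWMod Matrix.SpecialLinearGroup
open scoped MatrixGroups

namespace Fermat.Agent.Twist

section Fourier

variable {q : ℕ} [hq : Fact q.Prime] {K : Type*} [Field K]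

/-- correlation of a nontrivial character with its inverse -/
theorem sum_inv_mul_shift {ψ : MulChar (ZMod q) K} (hψ : ψ ≠ 1) (δ : ZMod q) :
    ∑ s, ψ⁻¹ s * ψ (s + δ) = if δ = 0 then (q : K) - 1 else -1 := by
  split_ifs with hδ
  · rw [hδ]
    have h1 : ∀ s : ZMod q, ψ⁻¹ s * ψ (s + 0) = (1 : MulChar (ZMod q) K) s := by
      intro s
      rw [add_zero, ← MulChar.mul_apply, inv_mul_cancel]
    rw [Finset.sum_congr rfl fun s _ => h1 s]
    have h2 := MulChar.sum_one_eq_card_units (R := ZMod q) (R' := K)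
    rw [h2, ZMod.card_units q, Nat.cast_sub hq.out.one_le, Nat.cast_one]
  · have h1 : ∑ s, ψ⁻¹ s * ψ (s + δ) = ∑ x, ψ⁻¹ (-δ * x) * ψ (-δ * x + δ) := by
      refine (Fintype.sum_bijective (fun x : ZMod q => -δ * x) ?_ _ _ (fun x => rfl)).symm
      exact mulLeft_bijective₀ _ (neg_ne_zero.mpr hδ)
    rw [h1]
    have h2 : ∀ x : ZMod q, ψ⁻¹ (-δ * x) * ψ (-δ * x + δ) = ψ (-1) * (ψ⁻¹ x * ψ (1 - x)) := by
      intro x
      have e1 : -δ * x + δ = δ * (1 - x) := by ring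
      have e2 : -δ * x = (-1) * (δ * x) := by ring
      have e3 : ψ⁻¹ (-1 : ZMod q) = ψ (-1) := by
        rw [MulChar.inv_apply']
        congr 1
        rw [inv_neg, inv_one]
      have e4 : ψ⁻¹ δ * ψ δ = 1 := by
        rw [← MulChar.mul_apply, inv_mul_cancel, MulChar.one_apply (isUnit_iff_ne_zero.mpr hδ)]
      rw [e1, e2, map_mul, map_mul, map_mul, e3]
      linear_combination (ψ (-1) * ψ⁻¹ x * ψ (1 - x)) * e4
    rw [Finset.sum_congr rfl fun x _ => h2 x, ← Finset.mul_sum]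
    have h3 : ∑ x, ψ⁻¹ x * ψ (1 - x) = jacobiSum ψ⁻¹ ψ⁻¹⁻¹ := by
      rw [inv_inv, jacobiSum]
    rw [h3, jacobiSum_nontrivial_inv (inv_ne_one.mpr hψ), MulChar.inv_apply', inv_neg, inv_one]
    have e5 : ψ (-1 : ZMod q) * ψ (-1) = 1 := by
      rw [← map_mul, neg_one_mul, neg_neg, map_one]
    linear_combination -e5

/-- A function orthogonal to all the translates of a nontrivial character is constant. -/
theorem const_of_orthogonal [CharZero K] {ψ : MulChar (ZMod q) K} (hψ : ψ ≠ 1) {F : ZMod q → K}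
    (h : ∀ v, ∑ u, ψ u * F (u + v) = 0) (v : ZMod q) : F v = F 0 := by
  have hq0 : (q : K) ≠ 0 := by exact_mod_cast hq.out.ne_zero
  have key : ∀ v' : ZMod q, (q : K) * F v' = ∑ w, F w := by
    intro v'
    have h1 : ∑ v, ψ⁻¹ (v' - v) * ∑ u, ψ u * F (u + v) = 0 :=
      Finset.sum_eq_zero fun v _ => by rw [h v, mul_zero]
    have h2 : ∀ v, ∑ u, ψ u * F (u + v) = ∑ w, ψ (w - v) * F w := by
      intro v
      refine Fintype.sum_bijective (fun u => u + v) (AddGroup.addRight_bijective v) _ _ fun u => ?_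
      rw [add_sub_cancel_right]
    have h3 : ∑ v, ψ⁻¹ (v' - v) * ∑ u, ψ u * F (u + v) =
        ∑ w, (∑ s, ψ⁻¹ s * ψ (s + (w - v'))) * F w := by
      calc ∑ v, ψ⁻¹ (v' - v) * ∑ u, ψ u * F (u + v)
          = ∑ v, ∑ w, ψ⁻¹ (v' - v) * ψ (w - v) * F w := by
            refine Finset.sum_congr rfl fun v _ => ?_
            rw [h2 v, Finset.mul_sum]
            exact Finset.sum_congr rfl fun w _ => by ring
        _ = ∑ w, ∑ v, ψ⁻¹ (v' - v) * ψ (w - v) * F w := Finset.sum_comm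
        _ = ∑ w, (∑ s, ψ⁻¹ s * ψ (s + (w - v'))) * F w := by
            refine Finset.sum_congr rfl fun w _ => ?_
            rw [Finset.sum_mul]
            refine Fintype.sum_bijective (fun v => v' - v) (Equiv.subLeft v').bijective _ _
              fun v => ?_
            congr 3
            ring
    rw [h3] at h1
    have h4 : ∀ w, (∑ s, ψ⁻¹ s * ψ (s + (w - v'))) * F w =
        (if w = v' then (q : K) * F w else 0) - F w := by
      intro w
      rw [sum_inv_mul_shift hψ]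
      by_cases hw : w = v'
      · rw [if_pos (sub_eq_zero.mpr hw), if_pos hw]
        ring
      · rw [if_neg (sub_ne_zero.mpr hw), if_neg hw]
        ring
    rw [Finset.sum_congr rfl fun w _ => h4 w, Finset.sum_sub_distrib,
      Finset.sum_ite_eq' Finset.univ v' (fun w => (q : K) * F w), if_pos (Finset.mem_univ _)] at h1
    exact sub_eq_zero.mp h1
  apply mul_left_cancel₀ hq0
  rw [key v, key 0]

end Fourier

section Average

variable {Γ : Type*} [Group Γ] {K : Type*} [Field K] [CharZero K] {κ : Γ →* K}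

/-- A cocycle vanishing on a subgroup of finite index is a coboundary. -/
theorem exists_dB_of_vanish (P : Subgroup Γ) [P.FiniteIndex] (f : Z1 κ K)
    (h : ∀ g ∈ P, f.1 g = 0) : ∃ a, dB κ K a = f := by
  classical
  have : Fintype (Γ ⧸ P) := Subgroup.fintypeQuotientOfFiniteIndex
  let F : Γ ⧸ P → K := Quotient.lift (fun g => f.1 g) (by
    intro g g' hgg'
    have h1 : g⁻¹ * g' ∈ P := QuotientGroup.leftRel_apply.mp hgg'
    change f.1 g = f.1 g'
    have h2 : g' = g * (g⁻¹ * g') := by group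
    rw [h2, Z1_mul, h _ h1, smul_zero, add_zero])
  have hF : ∀ g : Γ, F (g : Γ ⧸ P) = f.1 g := fun g => rfl
  set S : K := ∑ x, F x with hS
  set m : K := (Fintype.card (Γ ⧸ P) : K) with hm
  have hm0 : m ≠ 0 := by
    rw [hm]
    exact_mod_cast Fintype.card_ne_zero
  have key : ∀ g : Γ, S = m * f.1 g + κ g * S := by
    intro g
    have h1 : S = ∑ x, F (g • x) :=
      (Fintype.sum_bijective (fun x : Γ ⧸ P => g • x) (MulAction.bijective g) _ _
        (fun x => rfl)).symm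
    have h2 : ∀ x : Γ ⧸ P, F (g • x) = f.1 g + κ g * F x := by
      intro x
      obtain ⟨g', rfl⟩ := QuotientGroup.mk_surjective x
      rw [MulAction.Quotient.smul_coe, hF, hF, smul_eq_mul, Z1_mul, smul_eq_mul]
    rw [Finset.sum_congr rfl fun x _ => h2 x, Finset.sum_add_distrib, ← Finset.mul_sum,
      Finset.sum_const, Finset.card_univ, nsmul_eq_mul] at h1
    exact h1
  refine ⟨-(m⁻¹ * S), Subtype.ext (funext fun g => ?_)⟩
  rw [dB_apply, smul_eq_mul]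
  apply mul_left_cancel₀ hm0
  have h3 := key g
  have h4 : m * m⁻¹ = 1 := mul_inv_cancel₀ hm0
  linear_combination (S - κ g * S) * h4 + h3

end Average

section Up

variable {N q : ℕ}

/-- entries -/
theorem mem_dvd (hqN : q ∣ N) (γ : Gamma0 N) :
    ((γ : SL(2, ℤ)) : Matrix (Fin 2) (Fin 2) ℤ) 1 0 =
      (q : ℤ) * (((γ : SL(2, ℤ)) : Matrix (Fin 2) (Fin 2) ℤ) 1 0 / q) := by
  refine (Int.mul_ediv_cancel' ?_).symm
  exact (Int.natCast_dvd_natCast.mpr hqN).trans (isDelta_of_mem γ).1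

/-- the matrix `β γ β⁻¹`, `β = diag(q, 1)` -/
def upM (q : ℕ) (M : Matrix (Fin 2) (Fin 2) ℤ) : Matrix (Fin 2) (Fin 2) ℤ :=
  !![M 0 0, q * M 0 1; M 1 0 / q, M 1 1]

theorem det_upM (hqN : q ∣ N) (γ : Gamma0 N) :
    (upM q ((γ : SL(2, ℤ)) : Matrix (Fin 2) (Fin 2) ℤ)).det = 1 := by
  have h := mem_dvd hqN γ
  have hdet := (γ : SL(2, ℤ)).det_coe
  rw [Matrix.det_fin_two, h] at hdet
  rw [upM, Matrix.det_fin_two_of]
  linear_combination hdet

/-- `γ ↦ β γ β⁻¹`, `β = diag(q, 1)`, as a map from `Γ₀(N)` to `SL₂(ℤ)`. -/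
def up [NeZero q] (hqN : q ∣ N) : Gamma0 N →* SL(2, ℤ) where
  toFun γ := ⟨upM q ((γ : SL(2, ℤ)) : Matrix (Fin 2) (Fin 2) ℤ), det_upM hqN γ⟩
  map_one' := by
    apply Subtype.ext
    change upM q (1 : Matrix (Fin 2) (Fin 2) ℤ) = 1
    rw [upM]
    ext i j
    fin_cases i <;> fin_cases j <;> simp
  map_mul' γ γ' := by
    have hq0 : (q : ℤ) ≠ 0 := by exact_mod_cast NeZero.ne q
    apply Subtype.ext
    change upM q (((γ : SL(2, ℤ)) : Matrix (Fin 2) (Fin 2) ℤ) *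
      ((γ' : SL(2, ℤ)) : Matrix (Fin 2) (Fin 2) ℤ)) = upM q _ * upM q _
    have h1 := mem_dvd hqN γ
    have h2 := mem_dvd hqN γ'
    set c := ((γ : SL(2, ℤ)) : Matrix (Fin 2) (Fin 2) ℤ) 1 0 / q with hc
    set c' := ((γ' : SL(2, ℤ)) : Matrix (Fin 2) (Fin 2) ℤ) 1 0 / q with hc'
    have h3 : (((γ : SL(2, ℤ)) : Matrix (Fin 2) (Fin 2) ℤ) *
        ((γ' : SL(2, ℤ)) : Matrix (Fin 2) (Fin 2) ℤ)) 1 0 / q =
        c * ((γ' : SL(2, ℤ)) : Matrix (Fin 2) (Fin 2) ℤ) 0 0 +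
          ((γ : SL(2, ℤ)) : Matrix (Fin 2) (Fin 2) ℤ) 1 1 * c' := by
      apply Int.ediv_eq_of_eq_mul_right hq0
      rw [Matrix.mul_apply, Fin.sum_univ_two, h1, h2]
      ring
    rw [upM, upM, upM, h3, ← hc, ← hc']
    ext i j
    fin_cases i <;> fin_cases j
    · simp only [Fin.zero_eta, Matrix.of_apply, Matrix.cons_val', Matrix.cons_val_zero,
        Matrix.cons_val_fin_one, Matrix.mul_apply, Fin.sum_univ_two, Matrix.cons_val_one]
      rw [h2]
      ring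
    · simp only [Fin.zero_eta, Fin.mk_one, Matrix.of_apply, Matrix.cons_val', Matrix.cons_val_zero,
        Matrix.cons_val_fin_one, Matrix.mul_apply, Fin.sum_univ_two, Matrix.cons_val_one]
      ring
    · simp only [Fin.zero_eta, Fin.mk_one, Matrix.of_apply, Matrix.cons_val', Matrix.cons_val_zero,
        Matrix.cons_val_fin_one, Matrix.mul_apply, Fin.sum_univ_two, Matrix.cons_val_one]
    · simp only [Fin.mk_one, Matrix.of_apply, Matrix.cons_val', Matrix.cons_val_zero,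
        Matrix.cons_val_fin_one, Matrix.mul_apply, Fin.sum_univ_two, Matrix.cons_val_one]
      rw [h1]
      ring

variable [NeZero q] (hqN : q ∣ N)

theorem coe_up (γ : Gamma0 N) : ((up hqN γ : SL(2, ℤ)) : Matrix (Fin 2) (Fin 2) ℤ) =
    upM q ((γ : SL(2, ℤ)) : Matrix (Fin 2) (Fin 2) ℤ) := rfl

theorem up_injective : Function.Injective (up hqN) := by
  intro γ γ' h
  have hq0 : (q : ℤ) ≠ 0 := by exact_mod_cast NeZero.ne q
  have h1 : upM q ((γ : SL(2, ℤ)) : Matrix (Fin 2) (Fin 2) ℤ) =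
      upM q ((γ' : SL(2, ℤ)) : Matrix (Fin 2) (Fin 2) ℤ) := congrArg Subtype.val h
  have h00 := congrFun (congrFun h1 0) 0
  have h01 := congrFun (congrFun h1 0) 1
  have h10 := congrFun (congrFun h1 1) 0
  have h11 := congrFun (congrFun h1 1) 1
  simp only [upM, Matrix.of_apply, Matrix.cons_val', Matrix.cons_val_zero,
        Matrix.cons_val_fin_one, Matrix.cons_val_one] at h00 h01 h10 h11
  apply Subtype.ext
  apply Subtype.ext
  ext i j
  fin_cases i <;> fin_cases j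
  · exact h00
  · exact mul_left_cancel₀ hq0 h01
  · change ((γ : SL(2, ℤ)) : Matrix (Fin 2) (Fin 2) ℤ) 1 0 =
      ((γ' : SL(2, ℤ)) : Matrix (Fin 2) (Fin 2) ℤ) 1 0
    rw [mem_dvd hqN γ, mem_dvd hqN γ', h10]
  · exact h11

/-- elements in the image -/
theorem exists_up {n : ℕ} (hN : N = q * n) (x : SL(2, ℤ))
    (h01 : (q : ℤ) ∣ (x : Matrix (Fin 2) (Fin 2) ℤ) 0 1)
    (h10 : (n : ℤ) ∣ (x : Matrix (Fin 2) (Fin 2) ℤ) 1 0) :
    ∃ γ : Gamma0 N, up hqN γ = x ∧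
      ((γ : SL(2, ℤ)) : Matrix (Fin 2) (Fin 2) ℤ) 0 0 = (x : Matrix (Fin 2) (Fin 2) ℤ) 0 0 ∧
      ((γ : SL(2, ℤ)) : Matrix (Fin 2) (Fin 2) ℤ) 1 0 =
        (q : ℤ) * (x : Matrix (Fin 2) (Fin 2) ℤ) 1 0 ∧
      ((γ : SL(2, ℤ)) : Matrix (Fin 2) (Fin 2) ℤ) 1 1 = (x : Matrix (Fin 2) (Fin 2) ℤ) 1 1 := by
  have hq0 : (q : ℤ) ≠ 0 := by exact_mod_cast NeZero.ne q
  obtain ⟨b, hb⟩ := h01
  obtain ⟨c, hc⟩ := h10
  have hdet := x.det_coe
  rw [Matrix.det_fin_two, hb, hc] at hdet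
  let M : Matrix (Fin 2) (Fin 2) ℤ := !![(x : Matrix (Fin 2) (Fin 2) ℤ) 0 0, b;
    (q : ℤ) * (n * c), (x : Matrix (Fin 2) (Fin 2) ℤ) 1 1]
  have hM : M.det = 1 := by
    rw [Matrix.det_fin_two_of]
    linear_combination hdet
  refine ⟨⟨⟨M, hM⟩, Gamma0_mem.mpr ((ZMod.intCast_zmod_eq_zero_iff_dvd _ _).mpr ?_)⟩, ?_, rfl, ?_,
    rfl⟩
  · change ((N : ℕ) : ℤ) ∣ (q : ℤ) * (n * c)
    exact ⟨c, by rw [hN]; push_cast; ring⟩
  · apply Subtype.ext
    change upM q M = _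
    have e : (q : ℤ) * (n * c) / q = n * c := Int.mul_ediv_cancel_left _ hq0
    rw [upM]
    ext i j
    fin_cases i <;> fin_cases j
    · rfl
    · exact hb.symm
    · change (q : ℤ) * (n * c) / q = (x : Matrix (Fin 2) (Fin 2) ℤ) 1 0
      rw [e, hc]
    · rfl
  · change (q : ℤ) * (n * c) = _
    rw [hc]

end Up

section Main

variable {N q n : ℕ} [hq : Fact q.Prime] (hqN : q ∣ N) {K : Type*} [Field K]
  {χ : DirichletCharacter K N} (f : Z1 (kap χ) K)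

open Classical in
/-- `f' = f ∘ up⁻¹`. -/
noncomputable def fp (x : SL(2, ℤ)) : K :=
  if hx : ∃ γ : Gamma0 N, up hqN γ = x then f.1 hx.choose else 0

theorem fp_up (γ : Gamma0 N) : fp hqN f (up hqN γ) = f.1 γ := by
  have hx : ∃ γ' : Gamma0 N, up hqN γ' = up hqN γ := ⟨γ, rfl⟩
  rw [fp, dif_pos hx, up_injective hqN hx.choose_spec]

theorem Z1_conj (γ₀ γ : Gamma0 N) (h : kap χ γ = 1) :
    f.1 (γ₀ * γ * γ₀⁻¹) = kap χ γ₀ * f.1 γ := by
  have h1 : kap χ γ₀ * kap χ γ₀⁻¹ = 1 := by rw [← map_mul, mul_inv_cancel, map_one]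
  rw [Z1_mul, Z1_mul, Z1_inv, map_mul, h]
  simp only [smul_eq_mul]
  linear_combination (-f.1 γ₀) * h1

/-- elements of `Γ(N)` -/
theorem mem_Gamma_dvd {x : SL(2, ℤ)} (hx : x ∈ Gamma N) :
    (N : ℤ) ∣ (x : Matrix (Fin 2) (Fin 2) ℤ) 0 0 - 1 ∧
    (N : ℤ) ∣ (x : Matrix (Fin 2) (Fin 2) ℤ) 0 1 ∧
    (N : ℤ) ∣ (x : Matrix (Fin 2) (Fin 2) ℤ) 1 0 ∧
    (N : ℤ) ∣ (x : Matrix (Fin 2) (Fin 2) ℤ) 1 1 - 1 := by
  rw [Gamma_mem] at hx
  obtain ⟨h00, h01, h10, h11⟩ := hx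
  refine ⟨?_, ?_, ?_, ?_⟩
  · rw [← ZMod.intCast_zmod_eq_zero_iff_dvd, Int.cast_sub, h00, Int.cast_one, sub_self]
  · rw [← ZMod.intCast_zmod_eq_zero_iff_dvd, h01]
  · rw [← ZMod.intCast_zmod_eq_zero_iff_dvd, h10]
  · rw [← ZMod.intCast_zmod_eq_zero_iff_dvd, Int.cast_sub, h11, Int.cast_one, sub_self]

include hq in
theorem exists_of_Gamma (hN : N = q * n) {x : SL(2, ℤ)} (hx : x ∈ Gamma N) :
    ∃ γ : Gamma0 N, up hqN γ = x ∧ kap χ γ = 1 ∧
      (((N * q : ℕ) : ℤ) ∣ ((γ : SL(2, ℤ)) : Matrix (Fin 2) (Fin 2) ℤ) 1 0) ∧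
      (N : ℤ) ∣ ((γ : SL(2, ℤ)) : Matrix (Fin 2) (Fin 2) ℤ) 1 1 - 1 := by
  obtain ⟨h00, h01, h10, h11⟩ := mem_Gamma_dvd hx
  have hqZ : (q : ℤ) ∣ (N : ℤ) := Int.natCast_dvd_natCast.mpr hqN
  have hnZ : (n : ℤ) ∣ (N : ℤ) := Int.natCast_dvd_natCast.mpr ⟨q, by rw [hN, mul_comm]⟩
  obtain ⟨γ, hγ, e00, e10, e11⟩ := exists_up hqN hN x (hqZ.trans h01) (hnZ.trans h10)
  refine ⟨γ, hγ, ?_, ?_, ?_⟩
  · rw [kap_eq_sq, e11]
    have : (((x : Matrix (Fin 2) (Fin 2) ℤ) 1 1 : ℤ) : ZMod N) = 1 := (Gamma_mem.mp hx).2.2.2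
    rw [this, map_one, one_pow]
  · rw [e10]
    push_cast
    rw [mul_comm]
    exact mul_dvd_mul_left _ h10
  · rw [e11]
    exact h11

theorem fp_conj (hN : N = q * n) (γ₀ : Gamma0 N) {x : SL(2, ℤ)} (hx : x ∈ Gamma N) :
    fp hqN f (up hqN γ₀ * x * (up hqN γ₀)⁻¹) = kap χ γ₀ * fp hqN f x := by
  obtain ⟨γ, rfl, hκ, -, -⟩ := exists_of_Gamma (χ := χ) hqN hN hx
  rw [← map_inv, ← map_mul, ← map_mul, fp_up, fp_up, Z1_conj f γ₀ γ hκ]

theorem up_shiftG (t : ℤ) : up hqN (shiftG N t) = ModularGroup.T ^ ((q : ℤ) * t) := by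
  apply Subtype.ext
  have h := ModularGroup.coe_T_zpow ((q : ℤ) * t)
  change upM q !![1, t; 0, 1] = ((ModularGroup.T ^ ((q : ℤ) * t) : SL(2, ℤ)) :
    Matrix (Fin 2) (Fin 2) ℤ)
  rw [h, upM]
  ext i j
  fin_cases i <;> fin_cases j <;> simp

theorem conj_mem_Gamma {x : SL(2, ℤ)} (hx : x ∈ Gamma N) (h : SL(2, ℤ)) :
    h * x * h⁻¹ ∈ Gamma N := (Gamma_normal N).conj_mem x hx h

/-- periodicity -/
theorem fp_period (hN : N = q * n) (t : ℤ) {x : SL(2, ℤ)} (hx : x ∈ Gamma N) :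
    fp hqN f (ModularGroup.T ^ ((q : ℤ) * t) * x * (ModularGroup.T ^ ((q : ℤ) * t))⁻¹) =
      fp hqN f x := by
  rw [← up_shiftG hqN, fp_conj hqN f hN _ hx, kap_shiftG, one_mul]

/-- the conjugates by `n_{u/q}` -/
theorem up_of_tw {γ : Gamma0 N} {g : Gamma0 N} {u : ℤ}
    (h : TM q u * ((γ : SL(2, ℤ)) : Matrix (Fin 2) (Fin 2) ℤ) =
      ((g : SL(2, ℤ)) : Matrix (Fin 2) (Fin 2) ℤ) * TM q u) :
    up hqN g = ModularGroup.T ^ u * up hqN γ * (ModularGroup.T ^ u)⁻¹ := by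
  have hq0 : (q : ℤ) ≠ 0 := by exact_mod_cast hq.out.ne_zero
  rw [eq_mul_inv_iff_mul_eq]
  apply Subtype.ext
  have hT := ModularGroup.coe_T_zpow u
  change upM q ((g : SL(2, ℤ)) : Matrix (Fin 2) (Fin 2) ℤ) *
    ((ModularGroup.T ^ u : SL(2, ℤ)) : Matrix (Fin 2) (Fin 2) ℤ) =
    ((ModularGroup.T ^ u : SL(2, ℤ)) : Matrix (Fin 2) (Fin 2) ℤ) *
      upM q ((γ : SL(2, ℤ)) : Matrix (Fin 2) (Fin 2) ℤ)
  rw [hT]
  have h1 := mem_dvd hqN γ
  have h2 := mem_dvd hqN g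
  have h00 := congrFun (congrFun h 0) 0
  have h01 := congrFun (congrFun h 0) 1
  have h10 := congrFun (congrFun h 1) 0
  have h11 := congrFun (congrFun h 1) 1
  simp only [TM, Matrix.mul_apply, Fin.sum_univ_two, Matrix.of_apply, Matrix.cons_val',
    Matrix.cons_val_zero, Matrix.cons_val_one, Matrix.cons_val_fin_one, zero_mul, zero_add,
    mul_zero, add_zero] at h00 h01 h10 h11
  have e10 : ((g : SL(2, ℤ)) : Matrix (Fin 2) (Fin 2) ℤ) 1 0 / q =
      ((γ : SL(2, ℤ)) : Matrix (Fin 2) (Fin 2) ℤ) 1 0 / q := by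
    congr 1
    apply mul_left_cancel₀ hq0
    linear_combination -h10
  rw [upM, upM, e10]
  rw [e10] at h2
  set c := ((γ : SL(2, ℤ)) : Matrix (Fin 2) (Fin 2) ℤ) 1 0 / q with hc
  ext i j
  fin_cases i <;> fin_cases j
  · simp [Matrix.mul_apply, Fin.sum_univ_two]
    apply mul_left_cancel₀ hq0
    linear_combination -h00 + u * h1
  · simp [Matrix.mul_apply, Fin.sum_univ_two]
    linear_combination -h01
  · simp [Matrix.mul_apply, Fin.sum_univ_two]
  · simp [Matrix.mul_apply, Fin.sum_univ_two]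
    apply mul_left_cancel₀ hq0
    linear_combination -h11 - u * h2

variable {χ' : DirichletCharacter K (N * q)} {ψ : DirichletCharacter K q}

theorem cast_q_of_dvd (hqN : q ∣ N) {d : ℤ} (hd : (N : ℤ) ∣ d - 1) : ((d : ℤ) : ZMod q) = 1 := by
  have h1 : (q : ℤ) ∣ d - 1 := (Int.natCast_dvd_natCast.mpr hqN).trans hd
  have h2 := (ZMod.intCast_zmod_eq_zero_iff_dvd _ _).mpr h1
  push_cast at h2
  exact sub_eq_zero.mp h2

theorem cast_N_of_dvd {d : ℤ} (hd : (N : ℤ) ∣ d - 1) : ((d : ℤ) : ZMod N) = 1 := by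
  have h2 := (ZMod.intCast_zmod_eq_zero_iff_dvd _ _).mpr hd
  push_cast at h2
  exact sub_eq_zero.mp h2

include hqN in
theorem kap'_eq_one (h : TwRel N q χ χ' ψ) (γ : Gamma0 (N * q))
    (hd : (N : ℤ) ∣ ((γ : SL(2, ℤ)) : Matrix (Fin 2) (Fin 2) ℤ) 1 1 - 1) : kap χ' γ = 1 := by
  have h2 : IsCoprime (((γ : SL(2, ℤ)) : Matrix (Fin 2) (Fin 2) ℤ) 1 1) (N : ℤ) := by
    refine (isCoprime_d γ).of_isCoprime_of_dvd_right ?_
    push_cast
    exact dvd_mul_right _ _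
  have h3 := h _ h2
  rw [cast_q_of_dvd hqN hd, cast_N_of_dvd hd, map_one, map_one, mul_one] at h3
  rw [kap_eq_sq, ← h3, one_pow]

/-- The vanishing of the twist, in terms of `f'`. -/
theorem sum_fp_eq_zero (hN : N = q * n) (h : TwRel N q χ χ' ψ) {a : K}
    (ha : dB (kap χ') K a = twZ K hqN h f) {x : SL(2, ℤ)} (hx : x ∈ Gamma N) :
    ∑ u : ZMod q, ψ u * fp hqN f (ModularGroup.T ^ (u.val : ℤ) * x *
      (ModularGroup.T ^ (u.val : ℤ))⁻¹) = 0 := by
  obtain ⟨γ, rfl, -, h10, h11⟩ := exists_of_Gamma (χ := χ) hqN hN hx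
  let γ' : Gamma0 (N * q) := ⟨(γ : SL(2, ℤ)),
    Gamma0_mem.mpr ((ZMod.intCast_zmod_eq_zero_iff_dvd _ _).mpr h10)⟩
  have hκ : kap χ' γ' = 1 := kap'_eq_one hqN h γ' h11
  have h1 := congrArg (fun z : Z1 (kap χ') K => z.1 γ') ha
  simp only [dB_apply, twZ_apply, hκ, one_smul, sub_self] at h1
  rw [h1]
  refine Finset.sum_congr rfl fun u _ => ?_
  have hσ : twσ q γ' u = u := by
    have e : ((((γ' : SL(2, ℤ)) : Matrix (Fin 2) (Fin 2) ℤ) 1 1 : ℤ) : ZMod q) = 1 :=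
      cast_q_of_dvd hqN h11
    rw [twσ, e, one_pow, mul_one]
  have h2 := twc_spec hqN γ' u
  rw [hσ] at h2
  rw [← up_of_tw hqN (γ := γ) h2, fp_up, smul_eq_mul]

variable [CharZero K]

/-- Invariance of `f'` under `T`. -/
theorem fp_T (hN : N = q * n) (h : TwRel N q χ χ' ψ) (hψ : ψ ≠ 1) {a : K}
    (ha : dB (kap χ') K a = twZ K hqN h f) {x : SL(2, ℤ)} (hx : x ∈ Gamma N) :
    fp hqN f (ModularGroup.T * x * ModularGroup.T⁻¹) = fp hqN f x := by
  let F : ZMod q → K := fun u => fp hqN f (ModularGroup.T ^ (u.val : ℤ) * x *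
    (ModularGroup.T ^ (u.val : ℤ))⁻¹)
  have hF : ∀ v, ∑ u, ψ u * F (u + v) = 0 := by
    intro v
    have h1 := sum_fp_eq_zero hqN f hN h ha
      (conj_mem_Gamma hx (ModularGroup.T ^ (v.val : ℤ)))
    rw [← h1]
    refine Finset.sum_congr rfl fun u _ => ?_
    congr 1
    obtain ⟨k, hk⟩ : (q : ℤ) ∣ ((u.val : ℤ) + (v.val : ℤ)) - ((u + v).val : ℤ) := by
      rw [← ZMod.intCast_zmod_eq_zero_iff_dvd]
      push_cast
      rw [ZMod.natCast_zmod_val, ZMod.natCast_zmod_val, ZMod.natCast_zmod_val, sub_self]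
    have h2 := fp_period hqN f hN k (conj_mem_Gamma hx (ModularGroup.T ^ ((u + v).val : ℤ)))
    change fp hqN f _ = _
    rw [← h2]
    congr 1
    have h3 : (u.val : ℤ) = (q : ℤ) * k + ((u + v).val : ℤ) - (v.val : ℤ) := by
      linear_combination hk
    have h4 : ModularGroup.T ^ (u.val : ℤ) * ModularGroup.T ^ (v.val : ℤ) =
        ModularGroup.T ^ ((q : ℤ) * k) * ModularGroup.T ^ ((u + v).val : ℤ) := by
      rw [← zpow_add, ← zpow_add, h3]
      congr 1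
      ring
    calc ModularGroup.T ^ ((q : ℤ) * k) * (ModularGroup.T ^ ((u + v).val : ℤ) * x *
          (ModularGroup.T ^ ((u + v).val : ℤ))⁻¹) * (ModularGroup.T ^ ((q : ℤ) * k))⁻¹
        = (ModularGroup.T ^ ((q : ℤ) * k) * ModularGroup.T ^ ((u + v).val : ℤ)) * x *
          (ModularGroup.T ^ ((q : ℤ) * k) * ModularGroup.T ^ ((u + v).val : ℤ))⁻¹ := by
          rw [mul_inv_rev]
          simp only [mul_assoc]
      _ = _ := by
          rw [← h4, mul_inv_rev]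
          simp only [mul_assoc]
  have h1 := const_of_orthogonal hψ hF 1
  have e1 : F 1 = fp hqN f (ModularGroup.T * x * ModularGroup.T⁻¹) := by
    change fp hqN f _ = _
    rw [ZMod.val_one]
    simp
  have e0 : F 0 = fp hqN f x := by
    change fp hqN f _ = _
    rw [ZMod.val_zero]
    simp
  rw [← e1, h1, e0]

/-- the stabiliser of `f'` -/
def stab (_hN : N = q * n) : Subgroup SL(2, ℤ) where
  carrier := {h | ∀ x ∈ Gamma N, fp hqN f (h * x * h⁻¹) = fp hqN f x}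
  one_mem' := by
    intro x _
    rw [one_mul, inv_one, mul_one]
  mul_mem' := by
    intro g h hg hh x hx
    have e : g * h * x * (g * h)⁻¹ = g * (h * x * h⁻¹) * g⁻¹ := by
      rw [mul_inv_rev]
      simp only [mul_assoc]
    rw [e, hg _ (conj_mem_Gamma hx h), hh x hx]
  inv_mem' := by
    intro g hg x hx
    have h1 := hg _ (conj_mem_Gamma hx g⁻¹)
    rw [← h1]
    congr 1
    group

theorem mem_stab {hN : N = q * n} {h : SL(2, ℤ)} : h ∈ stab hqN f hN ↔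
    ∀ x ∈ Gamma N, fp hqN f (h * x * h⁻¹) = fp hqN f x := Iff.rfl

/-- lower triangular unipotent elements -/
def lowS (k : ℤ) : SL(2, ℤ) := ⟨!![1, 0; k, 1], by rw [Matrix.det_fin_two_of]; ring⟩

theorem lowS_mem (hN : N = q * n) (k : ℤ) : lowS ((n : ℤ) * k) ∈ stab hqN f hN := by
  intro x hx
  obtain ⟨γ, hγ, e00, e10, e11⟩ := exists_up hqN hN (lowS ((n : ℤ) * k))
    (by change (q : ℤ) ∣ 0; exact dvd_zero _) (by change (n : ℤ) ∣ (n : ℤ) * k; exact dvd_mul_right _ _)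
  rw [← hγ, fp_conj hqN f hN γ hx, kap_eq_sq, e11]
  change χ ((1 : ℤ) : ZMod N) ^ 2 * _ = _
  rw [Int.cast_one, map_one, one_pow, one_mul]

/-- The word giving a diagonal element modulo `q`. -/
theorem exists_word {hN : N = q * n} (hcop : Nat.Coprime q n)
    (hT : ModularGroup.T ∈ stab hqN f hN) {d : ℤ} (hd : IsCoprime d (N : ℤ))
    (hdn : (n : ℤ) ∣ d - 1) :
    ∃ h ∈ stab hqN f hN, (q : ℤ) ∣ (h : Matrix (Fin 2) (Fin 2) ℤ) 0 1 ∧
      (n : ℤ) ∣ (h : Matrix (Fin 2) (Fin 2) ℤ) 1 0 ∧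
      (N : ℤ) ∣ (h : Matrix (Fin 2) (Fin 2) ℤ) 1 1 - d := by
  obtain ⟨s, t, hst⟩ : IsCoprime (q : ℤ) (n : ℤ) := Nat.isCoprime_iff_coprime.mpr hcop
  obtain ⟨x, r, hxr⟩ : IsCoprime d (q : ℤ) :=
    hd.of_isCoprime_of_dvd_right (Int.natCast_dvd_natCast.mpr hqN)
  -- `x d = 1 - r q`, `t n = 1 - s q`
  set y : ℤ := (n : ℤ) * (-d * t) with hy
  set w : ℤ := (n : ℤ) * t with hw
  set z : ℤ := x - 1 with hz
  refine ⟨ModularGroup.T ^ x * lowS y * ModularGroup.T ^ z * lowS w * ModularGroup.T ^ (-1 : ℤ),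
    ?_, ?_⟩
  · have h1 : ∀ k : ℤ, ModularGroup.T ^ k ∈ stab hqN f hN := fun k => Subgroup.zpow_mem _ hT k
    exact mul_mem (mul_mem (mul_mem (mul_mem (h1 _) (lowS_mem hqN f hN _)) (h1 _))
      (lowS_mem hqN f hN _)) (h1 _)
  · have hM : ((ModularGroup.T ^ x * lowS y * ModularGroup.T ^ z * lowS w *
        ModularGroup.T ^ (-1 : ℤ) : SL(2, ℤ)) : Matrix (Fin 2) (Fin 2) ℤ) =
        !![1 + x * y + w * ((1 + x * y) * z + x),
          -(1 + x * y + w * ((1 + x * y) * z + x)) + ((1 + x * y) * z + x);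
          y + w * (y * z + 1), -(y + w * (y * z + 1)) + (y * z + 1)] := by
      rw [Matrix.SpecialLinearGroup.coe_mul, Matrix.SpecialLinearGroup.coe_mul,
        Matrix.SpecialLinearGroup.coe_mul, Matrix.SpecialLinearGroup.coe_mul]
      have e1 : ((lowS y : SL(2, ℤ)) : Matrix (Fin 2) (Fin 2) ℤ) = !![1, 0; y, 1] := rfl
      have e2 : ((lowS w : SL(2, ℤ)) : Matrix (Fin 2) (Fin 2) ℤ) = !![1, 0; w, 1] := rfl
      have e3 : ((ModularGroup.T ^ x : SL(2, ℤ)) : Matrix (Fin 2) (Fin 2) ℤ) = !![1, x; 0, 1] :=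
        ModularGroup.coe_T_zpow x
      have e4 : ((ModularGroup.T ^ z : SL(2, ℤ)) : Matrix (Fin 2) (Fin 2) ℤ) = !![1, z; 0, 1] :=
        ModularGroup.coe_T_zpow z
      have e5 : ((ModularGroup.T ^ (-1 : ℤ) : SL(2, ℤ)) : Matrix (Fin 2) (Fin 2) ℤ) =
        !![1, -1; 0, 1] := ModularGroup.coe_T_zpow (-1)
      rw [e1, e2, e3, e4, e5, Matrix.mul_fin_two, Matrix.mul_fin_two, Matrix.mul_fin_two,
        Matrix.mul_fin_two]
      ext i j
      fin_cases i <;> fin_cases j <;> simp <;> ring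
    rw [hM]
    refine ⟨?_, ?_, ?_⟩
    · change (q : ℤ) ∣ -(1 + x * y + w * ((1 + x * y) * z + x)) + ((1 + x * y) * z + x)
      -- `= -(1 + x y) + (1 - w) B`
      have h1 : 1 + x * y = q * (r + s - r * q * s) := by
        rw [hy]
        linear_combination (-(t * (n : ℤ))) * hxr + (r * (q : ℤ) - 1) * hst
      have h2 : 1 - w = q * s := by
        rw [hw]
        linear_combination -hst
      refine ⟨-(r + s - r * q * s) + s * ((1 + x * y) * z + x), ?_⟩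
      linear_combination -h1 + ((1 + x * y) * z + x) * h2
    · change (n : ℤ) ∣ y + w * (y * z + 1)
      exact dvd_add ⟨_, hy⟩ (Dvd.dvd.mul_right ⟨_, hw⟩ _)
    · change (N : ℤ) ∣ -(y + w * (y * z + 1)) + (y * z + 1) - d
      have hcopZ : IsCoprime (q : ℤ) (n : ℤ) := Nat.isCoprime_iff_coprime.mpr hcop
      have hNZ : (N : ℤ) = q * n := by rw [hN]; push_cast; rfl
      rw [hNZ]
      refine hcopZ.mul_dvd ?_ ?_
      · have h2 : 1 - w = q * s := by
          rw [hw]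
          linear_combination -hst
        refine ⟨-d * s + s * (y * z + 1), ?_⟩
        rw [hy] at *
        linear_combination (y * z + 1 - d) * h2
      · obtain ⟨m, hm⟩ := hdn
        refine ⟨d * t - t * (y * z + 1) + (-d * t) * z - m, ?_⟩
        rw [hw]
        have : y = (n : ℤ) * (-d * t) := hy
        linear_combination (-1 + z) * this - hm

/-- `f'` vanishes on `Γ(N)`. -/
theorem fp_eq_zero (hN : N = q * n) (hcop : Nat.Coprime q n)
    (hT : ModularGroup.T ∈ stab hqN f hN) {d : ℤ} (hd : IsCoprime d (N : ℤ))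
    (hdn : (n : ℤ) ∣ d - 1) (hχ : χ (d : ZMod N) ^ 2 ≠ 1) {x : SL(2, ℤ)} (hx : x ∈ Gamma N) :
    fp hqN f x = 0 := by
  obtain ⟨h, hh, h01, h10, h11⟩ := exists_word hqN f hcop hT hd hdn
  obtain ⟨γ, rfl, -, -, e11⟩ := exists_up hqN hN h h01 h10
  have h1 := hh x hx
  rw [fp_conj hqN f hN γ hx, kap_eq_sq, e11] at h1
  have h2 : ((((up hqN γ : SL(2, ℤ)) : Matrix (Fin 2) (Fin 2) ℤ) 1 1 : ℤ) : ZMod N) = (d : ZMod N) := by
    have h3 := (ZMod.intCast_zmod_eq_zero_iff_dvd _ _).mpr h11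
    push_cast at h3
    exact sub_eq_zero.mp h3
  rw [h2] at h1
  by_contra hcon
  exact hχ (mul_right_cancel₀ hcon (by rw [h1, one_mul]))

/-- **Injectivity of the twist.** -/
theorem tw1_injective [NeZero N] (hN : N = q * n) (hcop : Nat.Coprime q n)
    (h : TwRel N q χ χ' ψ) (hψ : ψ ≠ 1) {d : ℤ} (hd : IsCoprime d (N : ℤ))
    (hdn : (n : ℤ) ∣ d - 1) (hχ : χ (d : ZMod N) ^ 2 ≠ 1) :
    Function.Injective (tw1 K hqN h) := by
  rw [injective_iff_map_eq_zero]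
  intro x hx
  obtain ⟨f, rfl⟩ := cls_surjective _ _ x
  rw [tw1_cls, cls_eq_zero_iff] at hx
  obtain ⟨a, ha⟩ := hx
  rw [cls_eq_zero_iff]
  have hfin : ((Gamma N).comap (up hqN)).FiniteIndex := by
    refine ⟨?_⟩
    have := Gamma_normal N
    rw [Subgroup.index_comap]
    exact ne_zero_of_dvd_ne_zero (Subgroup.FiniteIndex.index_ne_zero (H := Gamma N))
      (Subgroup.relIndex_dvd_index_of_normal _ _)
  refine exists_dB_of_vanish ((Gamma N).comap (up hqN)) f fun g hg => ?_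
  rw [← fp_up hqN f g]
  exact fp_eq_zero hqN f hN hcop (fun y hy => fp_T hqN f hN h hψ ha hy) hd hdn hχ hg

end Main

end Fermat.Agent.Twist
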