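import Fermat.Agent.Twist.BiReps
import Fermat.Agent.TWMod.Gamma0

set_option autoImplicit false
set_option linter.unusedSectionVars false

/-!
# The twist of twisted cohomology classes of `Γ₀(N)` by a character modulo a prime `q ∣ N`

`tw1` maps a cocycle `f` on `Γ₀(N)` to `g ↦ ∑_{u mod q} ψ(u) f(n_{u/q} g n_{u'/q}⁻¹)`, a cocycle on
`Γ₀(N q)`.
-/

open CongruenceSubgroup Fermat.Agent.Top Fermat.Agent.TWMod Matrix.SpecialLinearGroup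
open scoped MatrixGroups

namespace Fermat.Agent.Twist


section Mat

variable (q : ℕ)

/-- The matrix `q · (1, u/q; 0, 1)`. -/
def TM (u : ℤ) : Matrix (Fin 2) (Fin 2) ℤ := !![(q : ℤ), u; 0, (q : ℤ)]

theorem det_TM (u : ℤ) : (TM q u).det = (q : ℤ) ^ 2 := by
  rw [TM, Matrix.det_fin_two_of]
  ring

variable [NeZero q]

/-- The matrix `q · (1, u/q; 0, 1)` in `GL₂(ℝ)`. -/
noncomputable def TR (u : ℤ) : GL (Fin 2) ℝ :=
  Matrix.GeneralLinearGroup.mkOfDetNeZero ((TM q u).map (Int.cast : ℤ → ℝ)) (by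
    have h : ((TM q u).map (Int.cast : ℤ → ℝ)).det = (((TM q u).det : ℤ) : ℝ) :=
      ((Int.castRingHom ℝ).map_det _).symm
    rw [h, det_TM]
    exact_mod_cast pow_ne_zero 2 (NeZero.ne q))

theorem TR_apply (u : ℤ) :
    ((TR q u : GL (Fin 2) ℝ) : Matrix (Fin 2) (Fin 2) ℝ) = (TM q u).map (Int.cast : ℤ → ℝ) := rfl

end Mat

theorem GL_of_int {A B C D : Matrix (Fin 2) (Fin 2) ℤ} {a b c d : GL (Fin 2) ℝ}
    (ha : (a : Matrix (Fin 2) (Fin 2) ℝ) = A.map (Int.cast : ℤ → ℝ))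
    (hb : (b : Matrix (Fin 2) (Fin 2) ℝ) = B.map (Int.cast : ℤ → ℝ))
    (hc : (c : Matrix (Fin 2) (Fin 2) ℝ) = C.map (Int.cast : ℤ → ℝ))
    (hd : (d : Matrix (Fin 2) (Fin 2) ℝ) = D.map (Int.cast : ℤ → ℝ)) (h : A * B = C * D) :
    a * b = c * d := by
  apply Units.ext
  rw [Units.val_mul, Units.val_mul, ha, hb, hc, hd, ← map_mul_cast, ← map_mul_cast, h]

theorem toGL_coe {N : ℕ} (γ : Gamma0 N) : ((toGL N γ : GL (Fin 2) ℝ) : Matrix (Fin 2) (Fin 2) ℝ) =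
    ((γ : SL(2, ℤ)) : Matrix (Fin 2) (Fin 2) ℤ).map (Int.cast : ℤ → ℝ) := mapGL_coe _

section Tw

variable {N q : ℕ}

theorem exists_tw (hqN : q ∣ N) (γ : Gamma0 (N * q)) (u u' : ℤ)
    (h : (q : ℤ) ∣ u * ((γ : SL(2, ℤ)) : Matrix (Fin 2) (Fin 2) ℤ) 1 1 -
      ((γ : SL(2, ℤ)) : Matrix (Fin 2) (Fin 2) ℤ) 0 0 * u') :
    ∃ g : Gamma0 N, TM q u * ((γ : SL(2, ℤ)) : Matrix (Fin 2) (Fin 2) ℤ) =
      ((g : SL(2, ℤ)) : Matrix (Fin 2) (Fin 2) ℤ) * TM q u' := by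
  obtain ⟨k, hk⟩ := (isDelta_of_mem γ).1
  obtain ⟨n, rfl⟩ := hqN
  obtain ⟨e, he⟩ := h
  have hdet := (γ : SL(2, ℤ)).det_coe
  rw [Matrix.det_fin_two] at hdet
  set a := ((γ : SL(2, ℤ)) : Matrix (Fin 2) (Fin 2) ℤ) 0 0 with ha
  set b := ((γ : SL(2, ℤ)) : Matrix (Fin 2) (Fin 2) ℤ) 0 1 with hb
  set c := ((γ : SL(2, ℤ)) : Matrix (Fin 2) (Fin 2) ℤ) 1 0 with hc
  set d := ((γ : SL(2, ℤ)) : Matrix (Fin 2) (Fin 2) ℤ) 1 1 with hd
  push_cast at hk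
  let A : Matrix (Fin 2) (Fin 2) ℤ := !![a + u * (q * n * k), b + e - u * u' * (n * k);
    c, d - (q * n * k) * u']
  have hA : A.det = 1 := by
    rw [Matrix.det_fin_two_of, hk]
    rw [hk] at hdet
    linear_combination hdet + (q * n * k : ℤ) * he
  refine ⟨⟨⟨A, hA⟩, Gamma0_mem.mpr ((ZMod.intCast_zmod_eq_zero_iff_dvd _ _).mpr ?_)⟩, ?_⟩
  · change ((q * n : ℕ) : ℤ) ∣ c
    exact ⟨q * k, by rw [hk]; push_cast; ring⟩
  · change TM q u * ((γ : SL(2, ℤ)) : Matrix (Fin 2) (Fin 2) ℤ) = A * TM q u'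
    have hγ : ((γ : SL(2, ℤ)) : Matrix (Fin 2) (Fin 2) ℤ) = !![a, b; c, d] := by
      ext i j
      fin_cases i <;> fin_cases j <;> rfl
    rw [hγ, TM, TM]
    ext i j
    fin_cases i <;> fin_cases j
    · simp [A, Matrix.mul_apply, Fin.sum_univ_two, hk]
      ring
    · simp [A, Matrix.mul_apply, Fin.sum_univ_two]
      linear_combination he
    · simp [A, Matrix.mul_apply, Fin.sum_univ_two]
      ring
    · simp [A, Matrix.mul_apply, Fin.sum_univ_two, hk]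
      ring

theorem tw_entries (hq0 : q ≠ 0) {γ : Gamma0 (N * q)} {g : Gamma0 N} {u u' : ℤ}
    (h : TM q u * ((γ : SL(2, ℤ)) : Matrix (Fin 2) (Fin 2) ℤ) =
      ((g : SL(2, ℤ)) : Matrix (Fin 2) (Fin 2) ℤ) * TM q u') :
    ((g : SL(2, ℤ)) : Matrix (Fin 2) (Fin 2) ℤ) 1 0 =
        ((γ : SL(2, ℤ)) : Matrix (Fin 2) (Fin 2) ℤ) 1 0 ∧
      ((((g : SL(2, ℤ)) : Matrix (Fin 2) (Fin 2) ℤ) 0 0 : ℤ) : ZMod N) =
        ((((γ : SL(2, ℤ)) : Matrix (Fin 2) (Fin 2) ℤ) 0 0 : ℤ) : ZMod N) ∧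
      ((((g : SL(2, ℤ)) : Matrix (Fin 2) (Fin 2) ℤ) 1 1 : ℤ) : ZMod N) =
        ((((γ : SL(2, ℤ)) : Matrix (Fin 2) (Fin 2) ℤ) 1 1 : ℤ) : ZMod N) := by
  have hq : (q : ℤ) ≠ 0 := by exact_mod_cast hq0
  obtain ⟨k, hk⟩ := (isDelta_of_mem γ).1
  have h00 := congrFun (congrFun h 0) 0
  have h10 := congrFun (congrFun h 1) 0
  have h11 := congrFun (congrFun h 1) 1
  simp only [TM, Matrix.mul_apply, Fin.sum_univ_two, Matrix.of_apply, Matrix.cons_val',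
    Matrix.cons_val_zero, Matrix.cons_val_one, Matrix.cons_val_fin_one, zero_mul, zero_add,
    mul_zero, add_zero] at h00 h10 h11
  have e10 : ((g : SL(2, ℤ)) : Matrix (Fin 2) (Fin 2) ℤ) 1 0 =
      ((γ : SL(2, ℤ)) : Matrix (Fin 2) (Fin 2) ℤ) 1 0 := by
    apply mul_left_cancel₀ hq
    linear_combination -h10
  refine ⟨e10, ?_, ?_⟩
  · rw [← sub_eq_zero, ← Int.cast_sub, ZMod.intCast_zmod_eq_zero_iff_dvd]
    refine ⟨u * k, ?_⟩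
    apply mul_left_cancel₀ hq
    rw [hk] at h00
    push_cast at h00
    linear_combination -h00
  · rw [← sub_eq_zero, ← Int.cast_sub, ZMod.intCast_zmod_eq_zero_iff_dvd]
    refine ⟨-u' * k, ?_⟩
    apply mul_left_cancel₀ hq
    rw [e10, hk] at h11
    push_cast at h11
    linear_combination -h11

theorem det_mod {N q : ℕ} (hqN : q ∣ N) (γ : Gamma0 (N * q)) :
    ((((γ : SL(2, ℤ)) : Matrix (Fin 2) (Fin 2) ℤ) 0 0 : ℤ) : ZMod q) *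
      ((((γ : SL(2, ℤ)) : Matrix (Fin 2) (Fin 2) ℤ) 1 1 : ℤ) : ZMod q) = 1 := by
  have hdet := congrArg (Int.cast : ℤ → ZMod q) (γ : SL(2, ℤ)).det_coe
  obtain ⟨k, hk⟩ := (isDelta_of_mem γ).1
  rw [Matrix.det_fin_two, hk] at hdet
  push_cast at hdet
  rw [CharP.cast_eq_zero (ZMod q) q] at hdet
  linear_combination hdet

theorem dd_mul {N q : ℕ} (γ γ' : Gamma0 (N * q)) :
    ((((γ * γ' : Gamma0 (N * q)) : SL(2, ℤ)) : Matrix (Fin 2) (Fin 2) ℤ) 1 1 : ZMod q) =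
      ((((γ : SL(2, ℤ)) : Matrix (Fin 2) (Fin 2) ℤ) 1 1 : ℤ) : ZMod q) *
        ((((γ' : SL(2, ℤ)) : Matrix (Fin 2) (Fin 2) ℤ) 1 1 : ℤ) : ZMod q) := by
  obtain ⟨k, hk⟩ := (isDelta_of_mem γ).1
  have h : (((γ * γ' : Gamma0 (N * q)) : SL(2, ℤ)) : Matrix (Fin 2) (Fin 2) ℤ) 1 1 =
      ((γ : SL(2, ℤ)) : Matrix (Fin 2) (Fin 2) ℤ) 1 0 *
        ((γ' : SL(2, ℤ)) : Matrix (Fin 2) (Fin 2) ℤ) 0 1 +
      ((γ : SL(2, ℤ)) : Matrix (Fin 2) (Fin 2) ℤ) 1 1 *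
        ((γ' : SL(2, ℤ)) : Matrix (Fin 2) (Fin 2) ℤ) 1 1 := by
    rw [Subgroup.coe_mul, Matrix.SpecialLinearGroup.coe_mul, Matrix.mul_apply, Fin.sum_univ_two]
  rw [h, hk]
  push_cast
  rw [CharP.cast_eq_zero (ZMod q) q]
  ring

/-- the permutation of `ZMod q` attached to `γ` -/
def twσ (q : ℕ) {N : ℕ} (γ : Gamma0 (N * q)) (u : ZMod q) : ZMod q :=
  u * ((((γ : SL(2, ℤ)) : Matrix (Fin 2) (Fin 2) ℤ) 1 1 : ℤ) : ZMod q) ^ 2

variable [NeZero q]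

theorem dvd_twσ (hqN : q ∣ N) (γ : Gamma0 (N * q)) (u : ZMod q) :
    (q : ℤ) ∣ (u.val : ℤ) * ((γ : SL(2, ℤ)) : Matrix (Fin 2) (Fin 2) ℤ) 1 1 -
      ((γ : SL(2, ℤ)) : Matrix (Fin 2) (Fin 2) ℤ) 0 0 * ((twσ q γ u).val : ℤ) := by
  rw [← ZMod.intCast_zmod_eq_zero_iff_dvd]
  push_cast
  rw [ZMod.natCast_zmod_val, ZMod.natCast_zmod_val, twσ]
  have h := det_mod hqN γ
  linear_combination (-u * ((((γ : SL(2, ℤ)) : Matrix (Fin 2) (Fin 2) ℤ) 1 1 : ℤ) : ZMod q)) * h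

/-- the cofactor: `n_{u/q} γ = (twc γ u) n_{u'/q}` -/
noncomputable def twc (hqN : q ∣ N) (γ : Gamma0 (N * q)) (u : ZMod q) : Gamma0 N :=
  (exists_tw hqN γ (u.val : ℤ) ((twσ q γ u).val : ℤ) (dvd_twσ hqN γ u)).choose

theorem twc_spec (hqN : q ∣ N) (γ : Gamma0 (N * q)) (u : ZMod q) :
    TM q (u.val : ℤ) * ((γ : SL(2, ℤ)) : Matrix (Fin 2) (Fin 2) ℤ) =
      ((twc hqN γ u : SL(2, ℤ)) : Matrix (Fin 2) (Fin 2) ℤ) * TM q ((twσ q γ u).val : ℤ) :=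
  (exists_tw hqN γ (u.val : ℤ) ((twσ q γ u).val : ℤ) (dvd_twσ hqN γ u)).choose_spec

/-- The system of representatives of the twist. -/
noncomputable def twBR (hqN : q ∣ N) : BR (toGL N) (toGL (N * q)) (ZMod q) where
  δ u := TR q (u.val : ℤ)
  σ := twσ q
  c := twc hqN
  inj := toGL_injective N
  mul_eq γ u := GL_of_int (TR_apply q _) (toGL_coe _) (toGL_coe _) (TR_apply q _)
    (twc_spec hqN γ u)
  σ_one u := by
    simp [twσ]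
  σ_mul γ γ' u := by
    rw [twσ, twσ, twσ, dd_mul]
    ring

variable {Λ : Type*} [CommRing Λ]

/-- The compatibility between the characters: `χ = χ' ψ`. -/
def TwRel (N q : ℕ) (χ : DirichletCharacter Λ N) (χ' : DirichletCharacter Λ (N * q))
    (ψ : DirichletCharacter Λ q) : Prop :=
  ∀ x : ℤ, IsCoprime x (N : ℤ) → χ (x : ZMod N) = χ' (x : ZMod (N * q)) * ψ (x : ZMod q)

theorem isCoprime_d {N : ℕ} (γ : Gamma0 N) :
    IsCoprime (((γ : SL(2, ℤ)) : Matrix (Fin 2) (Fin 2) ℤ) 1 1) (N : ℤ) := by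
  obtain ⟨k, hk⟩ := (isDelta_of_mem γ).1
  have hdet := (γ : SL(2, ℤ)).det_coe
  rw [Matrix.det_fin_two, hk] at hdet
  exact ⟨((γ : SL(2, ℤ)) : Matrix (Fin 2) (Fin 2) ℤ) 0 0,
    -((γ : SL(2, ℤ)) : Matrix (Fin 2) (Fin 2) ℤ) 0 1 * k, by linear_combination hdet⟩

theorem isWB_tw (hqN : q ∣ N) {χ : DirichletCharacter Λ N} {χ' : DirichletCharacter Λ (N * q)}
    {ψ : DirichletCharacter Λ q} (h : TwRel N q χ χ' ψ) :
    IsWB (twBR hqN) (kap χ) (kap χ') (fun u => ψ u) := by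
  intro γ u
  change ψ u * kap χ (twc hqN γ u) = kap χ' γ * ψ (twσ q γ u)
  have h1 := (tw_entries (NeZero.ne q) (twc_spec hqN γ u)).2.2
  have h2 : IsCoprime (((γ : SL(2, ℤ)) : Matrix (Fin 2) (Fin 2) ℤ) 1 1) (N : ℤ) := by
    refine (isCoprime_d γ).of_isCoprime_of_dvd_right ?_
    push_cast
    exact dvd_mul_right _ _
  rw [kap_eq_sq, kap_eq_sq, h1, h _ h2, twσ, map_mul, map_pow]
  ring

variable (A : Type*) [AddCommGroup A] [Module Λ A]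

/-- **The twist by `ψ`**, on cocycles. -/
noncomputable def twZ (hqN : q ∣ N) {χ : DirichletCharacter Λ N}
    {χ' : DirichletCharacter Λ (N * q)} {ψ : DirichletCharacter Λ q} (h : TwRel N q χ χ' ψ) :
    Z1 (kap χ) A →ₗ[Λ] Z1 (kap χ') A := opB A (isWB_tw hqN h)

/-- **The twist by `ψ`**, on cohomology. -/
noncomputable def tw1 (hqN : q ∣ N) {χ : DirichletCharacter Λ N}
    {χ' : DirichletCharacter Λ (N * q)} {ψ : DirichletCharacter Λ q} (h : TwRel N q χ χ' ψ) :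
    H1 (kap χ) A →ₗ[Λ] H1 (kap χ') A := opBH A (isWB_tw hqN h)

theorem twZ_apply (hqN : q ∣ N) {χ : DirichletCharacter Λ N}
    {χ' : DirichletCharacter Λ (N * q)} {ψ : DirichletCharacter Λ q} (h : TwRel N q χ χ' ψ)
    (f : Z1 (kap χ) A) (γ : Gamma0 (N * q)) :
    (twZ A hqN h f).1 γ = ∑ u : ZMod q, ψ u • f.1 (twc hqN γ u) := rfl

theorem tw1_cls (hqN : q ∣ N) {χ : DirichletCharacter Λ N}
    {χ' : DirichletCharacter Λ (N * q)} {ψ : DirichletCharacter Λ q} (h : TwRel N q χ χ' ψ)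
    (f : Z1 (kap χ) A) :
    tw1 A hqN h (cls (kap χ) A f) = cls (kap χ') A (twZ A hqN h f) := rfl

end Tw

end Fermat.Agent.Twist
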