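import Fermat.Agent.Twist.Tw

set_option autoImplicit false
set_option linter.unusedSectionVars false

/-!
# The twist commutes with the Hecke operators
-/

open CongruenceSubgroup Fermat.Agent.Top Fermat.Agent.TWMod Matrix.SpecialLinearGroup
open scoped MatrixGroups

namespace Fermat.Agent.Twist

theorem upper_unique (g : SL(2, ℤ)) {m x n m' x' n' : ℤ} (hm : 0 < m) (hm' : 0 < m')
    (h : (g : Matrix (Fin 2) (Fin 2) ℤ) * !![m, x; 0, n] = !![m', x'; 0, n']) :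
    m = m' ∧ n = n' ∧ ∃ t, x' = x + t * n := by
  have h00 := congrFun (congrFun h 0) 0
  have h01 := congrFun (congrFun h 0) 1
  have h10 := congrFun (congrFun h 1) 0
  have h11 := congrFun (congrFun h 1) 1
  simp only [Matrix.mul_apply, Fin.sum_univ_two, Matrix.of_apply, Matrix.cons_val',
    Matrix.cons_val_zero, Matrix.cons_val_one, Matrix.cons_val_fin_one, mul_zero,
    add_zero] at h00 h01 h10 h11
  have hdet := g.det_coe
  rw [Matrix.det_fin_two] at hdet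
  have e10 : (g : Matrix (Fin 2) (Fin 2) ℤ) 1 0 = 0 :=
    (mul_eq_zero.mp h10).resolve_right hm.ne'
  rw [e10, mul_zero, sub_zero] at hdet
  have hpos : 0 < (g : Matrix (Fin 2) (Fin 2) ℤ) 0 0 := by
    by_contra hcon
    rw [not_lt] at hcon
    have := mul_nonpos_of_nonpos_of_nonneg hcon hm.le
    omega
  have e00 : (g : Matrix (Fin 2) (Fin 2) ℤ) 0 0 = 1 :=
    Int.eq_one_of_mul_eq_one_right hpos.le hdet
  rw [e00, one_mul] at hdet
  rw [e00, one_mul] at h00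
  rw [e10, zero_mul, zero_add, hdet, one_mul] at h11
  rw [e00, one_mul] at h01
  exact ⟨h00, h11, _, h01.symm⟩

section

variable {q ℓ : ℕ}

theorem HM_mul_TM_some (j : Fin ℓ) (u : ℤ) :
    HM ℓ (some j) * TM q u = !![(q : ℤ), u + ((j : ℕ) : ℤ) * q; 0, (ℓ : ℤ) * q] := by
  rw [HM_some, TM]
  ext a b
  fin_cases a <;> fin_cases b <;> simp [Matrix.mul_apply, Fin.sum_univ_two]

theorem HM_mul_TM_none (u : ℤ) :
    HM ℓ none * TM q u = !![(ℓ : ℤ) * q, (ℓ : ℤ) * u; 0, (q : ℤ)] := by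
  rw [HM_none, TM]
  ext a b
  fin_cases a <;> fin_cases b <;> simp [Matrix.mul_apply, Fin.sum_univ_two]

theorem TM_mul_HM_some (j : Fin ℓ) (u : ℤ) :
    TM q u * HM ℓ (some j) = !![(q : ℤ), (q : ℤ) * ((j : ℕ) : ℤ) + u * ℓ; 0, (ℓ : ℤ) * q] := by
  rw [HM_some, TM]
  ext a b
  fin_cases a <;> fin_cases b <;> simp [Matrix.mul_apply, Fin.sum_univ_two, mul_comm]

theorem TM_mul_HM_none (u : ℤ) :
    TM q u * HM ℓ none = !![(ℓ : ℤ) * q, u; 0, (q : ℤ)] := by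
  rw [HM_none, TM]
  ext a b
  fin_cases a <;> fin_cases b <;> simp [Matrix.mul_apply, Fin.sum_univ_two, mul_comm]

theorem shift_mul (t m x n : ℤ) :
    (!![1, t; 0, 1] : Matrix (Fin 2) (Fin 2) ℤ) * !![m, x; 0, n] = !![m, x + t * n; 0, n] := by
  ext a b
  fin_cases a <;> fin_cases b <;> simp [Matrix.mul_apply, Fin.sum_univ_two]

/-- The upper triangular unipotent element of `Γ₀(N)`. -/
def shiftG (N : ℕ) (t : ℤ) : Gamma0 N :=
  ⟨⟨!![1, t; 0, 1], by rw [Matrix.det_fin_two_of]; ring⟩, Gamma0_mem.mpr (by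
    change ((0 : ℤ) : ZMod N) = 0
    exact Int.cast_zero)⟩

theorem coe_shiftG (N : ℕ) (t : ℤ) :
    ((shiftG N t : SL(2, ℤ)) : Matrix (Fin 2) (Fin 2) ℤ) = !![1, t; 0, 1] := rfl

theorem kap_shiftG {N : ℕ} {Λ : Type*} [CommRing Λ] (χ : DirichletCharacter Λ N) (t : ℤ) :
    kap χ (shiftG N t) = 1 := by
  rw [kap_eq_sq]
  change χ ((1 : ℤ) : ZMod N) ^ 2 = 1
  rw [Int.cast_one, map_one, one_pow]

variable [hq : Fact q.Prime] (hℓ : ℓ.Prime)

include hℓ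

theorem fin_eq_of_dvd {j j' : Fin ℓ} (h : (ℓ : ℤ) ∣ ((j : ℕ) : ℤ) - ((j' : ℕ) : ℤ)) : j = j' := by
  have h2 : ((j' : ℕ) : ℤ) ≡ ((j : ℕ) : ℤ) [ZMOD ℓ] := Int.modEq_iff_dvd.mpr h
  exact Fin.ext (Nat.ModEq.eq_of_lt_of_lt (Int.natCast_modEq_iff.mp h2) j'.2 j.2).symm

theorem unique_HT (hne : ℓ ≠ q) (g : SL(2, ℤ)) (i j : Option (Fin ℓ)) (u v : ZMod q)
    (h : (g : Matrix (Fin 2) (Fin 2) ℤ) * (HM ℓ i * TM q (u.val : ℤ)) =
      HM ℓ j * TM q (v.val : ℤ)) : i = j ∧ u = v := by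
  have hq0 : (0 : ℤ) < q := by exact_mod_cast hq.out.pos
  have hℓ0 : (0 : ℤ) < ℓ := by exact_mod_cast hℓ.pos
  have hℓ1 : (1 : ℤ) < ℓ := by exact_mod_cast hℓ.one_lt
  have hunit : ((ℓ : ℤ) : ZMod q) ≠ 0 := by
    rw [Int.cast_natCast, Ne, ZMod.natCast_eq_zero_iff]
    exact fun hd => hne ((Nat.prime_dvd_prime_iff_eq hq.out hℓ).mp hd).symm
  cases i with
  | none =>
    cases j with
    | none =>
      rw [HM_mul_TM_none, HM_mul_TM_none] at h
      obtain ⟨-, -, t, ht⟩ := upper_unique g (by positivity) (by positivity) h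
      refine ⟨rfl, ?_⟩
      have h1 := congrArg (Int.cast : ℤ → ZMod q) ht
      push_cast at h1
      rw [ZMod.natCast_zmod_val, ZMod.natCast_zmod_val, CharP.cast_eq_zero (ZMod q) q, mul_zero,
        add_zero] at h1
      rw [Int.cast_natCast] at hunit
      exact (mul_left_cancel₀ hunit h1).symm
    | some b =>
      rw [HM_mul_TM_none, HM_mul_TM_some] at h
      obtain ⟨h1, -, -⟩ := upper_unique g (by positivity) (by positivity) h
      nlinarith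
  | some a =>
    cases j with
    | none =>
      rw [HM_mul_TM_none, HM_mul_TM_some] at h
      obtain ⟨h1, -, -⟩ := upper_unique g (by positivity) (by positivity) h
      nlinarith
    | some b =>
      rw [HM_mul_TM_some, HM_mul_TM_some] at h
      obtain ⟨-, -, t, ht⟩ := upper_unique g (by positivity) (by positivity) h
      have h1 := congrArg (Int.cast : ℤ → ZMod q) ht
      push_cast at h1
      rw [ZMod.natCast_zmod_val, ZMod.natCast_zmod_val, CharP.cast_eq_zero (ZMod q) q] at h1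
      have huv : v = u := by linear_combination h1
      refine ⟨?_, huv.symm⟩
      rw [huv] at ht
      have h2 : ((b : ℕ) : ℤ) = ((a : ℕ) : ℤ) + t * ℓ := by
        apply mul_right_cancel₀ hq0.ne'
        linear_combination ht
      exact congrArg some (fin_eq_of_dvd hℓ ⟨-t, by rw [h2]; ring⟩)

theorem unique_TH (hne : ℓ ≠ q) (g : SL(2, ℤ)) (i j : Option (Fin ℓ)) (u v : ZMod q)
    (h : (g : Matrix (Fin 2) (Fin 2) ℤ) * (TM q (u.val : ℤ) * HM ℓ i) =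
      TM q (v.val : ℤ) * HM ℓ j) : i = j ∧ u = v := by
  have hq0 : (0 : ℤ) < q := by exact_mod_cast hq.out.pos
  have hℓ0 : (0 : ℤ) < ℓ := by exact_mod_cast hℓ.pos
  have hℓ1 : (1 : ℤ) < ℓ := by exact_mod_cast hℓ.one_lt
  have hunit : ((ℓ : ℤ) : ZMod q) ≠ 0 := by
    rw [Int.cast_natCast, Ne, ZMod.natCast_eq_zero_iff]
    exact fun hd => hne ((Nat.prime_dvd_prime_iff_eq hq.out hℓ).mp hd).symm
  cases i with
  | none =>
    cases j with
    | none =>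
      rw [TM_mul_HM_none, TM_mul_HM_none] at h
      obtain ⟨-, -, t, ht⟩ := upper_unique g (by positivity) (by positivity) h
      refine ⟨rfl, ?_⟩
      have h1 := congrArg (Int.cast : ℤ → ZMod q) ht
      push_cast at h1
      rw [ZMod.natCast_zmod_val, ZMod.natCast_zmod_val, CharP.cast_eq_zero (ZMod q) q, mul_zero,
        add_zero] at h1
      exact h1.symm
    | some b =>
      rw [TM_mul_HM_none, TM_mul_HM_some] at h
      obtain ⟨h1, -, -⟩ := upper_unique g (by positivity) (by positivity) h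
      nlinarith
  | some a =>
    cases j with
    | none =>
      rw [TM_mul_HM_none, TM_mul_HM_some] at h
      obtain ⟨h1, -, -⟩ := upper_unique g (by positivity) (by positivity) h
      nlinarith
    | some b =>
      rw [TM_mul_HM_some, TM_mul_HM_some] at h
      obtain ⟨-, -, t, ht⟩ := upper_unique g (by positivity) (by positivity) h
      have h1 := congrArg (Int.cast : ℤ → ZMod q) ht
      push_cast at h1
      rw [ZMod.natCast_zmod_val, ZMod.natCast_zmod_val, CharP.cast_eq_zero (ZMod q) q] at h1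
      have huv : v = u := by
        rw [Int.cast_natCast] at hunit
        apply mul_right_cancel₀ hunit
        linear_combination h1
      refine ⟨?_, huv.symm⟩
      rw [huv] at ht
      have h2 : ((b : ℕ) : ℤ) = ((a : ℕ) : ℤ) + t * ℓ := by
        apply mul_left_cancel₀ hq0.ne'
        linear_combination ht
      exact congrArg some (fin_eq_of_dvd hℓ ⟨-t, by rw [h2]; ring⟩)

/-- Exchange of the representatives of `T_ℓ` and of the twist. -/
theorem exists_swap_none (u : ZMod q) : ∃ t : ℤ,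
    HM ℓ none * TM q (u.val : ℤ) =
      !![1, t; 0, 1] * (TM q ((((ℓ : ZMod q) * u).val : ℕ) : ℤ) * HM ℓ none) := by
  obtain ⟨t, ht⟩ : (q : ℤ) ∣ (ℓ : ℤ) * (u.val : ℤ) - ((((ℓ : ZMod q) * u).val : ℕ) : ℤ) := by
    rw [← ZMod.intCast_zmod_eq_zero_iff_dvd]
    push_cast
    rw [ZMod.natCast_zmod_val, ZMod.natCast_zmod_val, sub_self]
  refine ⟨t, ?_⟩
  rw [HM_mul_TM_none, TM_mul_HM_none, shift_mul]
  have h5 : (ℓ : ℤ) * (u.val : ℤ) = ((((ℓ : ZMod q) * u).val : ℕ) : ℤ) + t * q := by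
    linear_combination ht
  rw [h5]

theorem exists_swap_some (hne : ℓ ≠ q) (j : Fin ℓ) (u : ZMod q) : ∃ (t : ℤ) (j' : Fin ℓ),
    HM ℓ (some j) * TM q (u.val : ℤ) =
      !![1, t; 0, 1] * (TM q (((u * (ℓ : ZMod q)⁻¹).val : ℕ) : ℤ) * HM ℓ (some j')) := by
  have hunit : ((ℓ : ℕ) : ZMod q) ≠ 0 := by
    rw [Ne, ZMod.natCast_eq_zero_iff]
    exact fun hd => hne ((Nat.prime_dvd_prime_iff_eq hq.out hℓ).mp hd).symm
  obtain ⟨t, ht⟩ : (q : ℤ) ∣ (u.val : ℤ) - (((u * (ℓ : ZMod q)⁻¹).val : ℕ) : ℤ) * ℓ := by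
    rw [← ZMod.intCast_zmod_eq_zero_iff_dvd]
    push_cast
    rw [ZMod.natCast_zmod_val, ZMod.natCast_zmod_val, mul_assoc, inv_mul_cancel₀ hunit, mul_one,
      sub_self]
  have hℓ0 : (0 : ℤ) < ℓ := by exact_mod_cast hℓ.pos
  have h1 := Int.emod_nonneg (t + ((j : ℕ) : ℤ)) hℓ0.ne'
  have h2 := Int.emod_lt_of_pos (t + ((j : ℕ) : ℤ)) hℓ0
  have h3 := Int.emod_add_mul_ediv (t + ((j : ℕ) : ℤ)) ℓ
  refine ⟨(t + ((j : ℕ) : ℤ)) / ℓ, ⟨((t + ((j : ℕ) : ℤ)) % ℓ).toNat, by omega⟩, ?_⟩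
  rw [HM_mul_TM_some, TM_mul_HM_some, shift_mul]
  have h4 : (((⟨((t + ((j : ℕ) : ℤ)) % ℓ).toNat, by omega⟩ : Fin ℓ) : ℕ) : ℤ) =
      (t + ((j : ℕ) : ℤ)) % ℓ := Int.toNat_of_nonneg h1
  rw [h4]
  have h5 : (u.val : ℤ) + ((j : ℕ) : ℤ) * q = (q : ℤ) * ((t + ((j : ℕ) : ℤ)) % ℓ) +
      (((u * (ℓ : ZMod q)⁻¹).val : ℕ) : ℤ) * ℓ + (t + ((j : ℕ) : ℤ)) / ℓ * (ℓ * q) := by
    linear_combination ht - (q : ℤ) * h3
  rw [h5]

end

section Equivariance

variable {N q ℓ : ℕ} [hq : Fact q.Prime] {Λ : Type*} [CommRing Λ] (A : Type*) [AddCommGroup A]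
  [Module Λ A] (hqN : q ∣ N) {χ : DirichletCharacter Λ N} {χ' : DirichletCharacter Λ (N * q)}
  {ψ : DirichletCharacter Λ q} (h : TwRel N q χ χ' ψ) (hℓ : ℓ.Prime) (hℓN : ¬ ℓ ∣ N)

theorem HR_mul_TR_apply (hℓ : ℓ.Prime) (i : Option (Fin ℓ)) (u : ℤ) :
    ((HR ℓ i * TR q u : GL (Fin 2) ℝ) : Matrix (Fin 2) (Fin 2) ℝ) =
      (HM ℓ i * TM q u).map (Int.cast : ℤ → ℝ) := by
  rw [Units.val_mul, HR_apply hℓ.ne_zero, TR_apply, map_mul_cast]

theorem TR_mul_HR_apply (hℓ : ℓ.Prime) (i : Option (Fin ℓ)) (u : ℤ) :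
    ((TR q u * HR ℓ i : GL (Fin 2) ℝ) : Matrix (Fin 2) (Fin 2) ℝ) =
      (TM q u * HM ℓ i).map (Int.cast : ℤ → ℝ) := by
  rw [Units.val_mul, HR_apply hℓ.ne_zero, TR_apply, map_mul_cast]

include h in
theorem char_ne (hqN : q ∣ N) (hℓ : ℓ.Prime) (hℓN : ¬ ℓ ∣ N) :
    χ (ℓ : ZMod N) = χ' (ℓ : ZMod (N * q)) * ψ (ℓ : ZMod q) ∧
      χ (ℓ : ZMod N) * χ⁻¹ (ℓ : ZMod N) = 1 ∧
      χ' (ℓ : ZMod (N * q)) * χ'⁻¹ (ℓ : ZMod (N * q)) = 1 := by
  have h1 : Nat.Coprime ℓ N := (Nat.Prime.coprime_iff_not_dvd hℓ).mpr hℓN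
  have h2 : Nat.Coprime ℓ (N * q) := Nat.Coprime.mul_right h1 (h1.coprime_dvd_right hqN)
  refine ⟨?_, char_mul_inv χ ((ZMod.isUnit_iff_coprime _ _).mpr h1),
    char_mul_inv χ' ((ZMod.isUnit_iff_coprime _ _).mpr h2)⟩
  have := h (ℓ : ℤ) (Nat.isCoprime_iff_coprime.mpr h1)
  simpa using this

include h in
theorem weight_some (hℓ : ℓ.Prime) (hℓN : ¬ ℓ ∣ N) (hqN : q ∣ N) (u : ZMod q) :
    χ⁻¹ (ℓ : ZMod N) * ψ u = ψ (u * (ℓ : ZMod q)⁻¹) * χ'⁻¹ (ℓ : ZMod (N * q)) := by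
  obtain ⟨h1, h2, h3⟩ := char_ne h hqN hℓ hℓN
  have hunit : ((ℓ : ℕ) : ZMod q) ≠ 0 := by
    rw [Ne, ZMod.natCast_eq_zero_iff]
    intro hd
    exact hℓN (((Nat.prime_dvd_prime_iff_eq hq.out hℓ).mp hd) ▸ hqN)
  have h4 : ψ (u * (ℓ : ZMod q)⁻¹) * ψ (ℓ : ZMod q) = ψ u := by
    rw [← map_mul, mul_assoc, inv_mul_cancel₀ hunit, mul_one]
  rw [← h4]
  linear_combination (- χ⁻¹ (ℓ : ZMod N) * ψ (u * (ℓ : ZMod q)⁻¹) * ψ (ℓ : ZMod q)) * h3 -
    (χ⁻¹ (ℓ : ZMod N) * ψ (u * (ℓ : ZMod q)⁻¹) * χ'⁻¹ (ℓ : ZMod (N * q))) * h1 +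
    (ψ (u * (ℓ : ZMod q)⁻¹) * χ'⁻¹ (ℓ : ZMod (N * q))) * h2

include hℓN in
/-- **The twist commutes with the Hecke operators.** -/
theorem tw1_hk (x : H1 (kap χ) A) :
    tw1 A hqN h (hk χ A hℓ x) = hk χ' A hℓ (tw1 A hqN h x) := by
  classical
  have hne : ℓ ≠ q := fun he => hℓN (he ▸ hqN)
  have hℓN' : ¬ ℓ ∣ N * q := fun hd => (hℓ.dvd_mul.mp hd).elim hℓN fun hd' =>
    hne ((Nat.prime_dvd_prime_iff_eq hℓ hq.out).mp hd')
  have e1 : tw1 A hqN h (hk χ A hℓ x) =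
      opBH A ((IsWB.ofReps (isWeight_hw χ hℓ)).comp (isWB_tw hqN h)) x := by
    rw [opBH_comp (IsWB.ofReps (isWeight_hw χ hℓ)) (isWB_tw hqN h), opBH_ofReps]
    rfl
  have e2 : hk χ' A hℓ (tw1 A hqN h x) =
      opBH A ((isWB_tw hqN h).comp (IsWB.ofReps (isWeight_hw χ' hℓ))) x := by
    rw [opBH_comp (isWB_tw hqN h) (IsWB.ofReps (isWeight_hw χ' hℓ)), opBH_ofReps]
    rfl
  rw [e1, e2]
  refine opBH_congr _ _ ?_ ?_ ?_ ?_ x
  · intro g i j hij
    have h1 := (eq_coe_of_mapGL_mul (HR_mul_TR_apply hℓ i.1.1 (i.2.val : ℤ))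
      (HR_mul_TR_apply hℓ j.1.1 (j.2.val : ℤ))).mp hij
    obtain ⟨h2, h3⟩ := unique_HT hℓ hne _ _ _ _ _ h1
    exact Prod.ext (Subtype.ext h2) h3
  · intro g i j hij
    have h1 := (eq_coe_of_mapGL_mul (TR_mul_HR_apply hℓ i.2.1 (i.1.val : ℤ))
      (TR_mul_HR_apply hℓ j.2.1 (j.1.val : ℤ))).mp hij
    obtain ⟨h2, h3⟩ := unique_TH hℓ hne _ _ _ _ _ h1
    exact Prod.ext h3 (Subtype.ext h2)
  · rintro ⟨⟨i, hi⟩, u⟩
    cases i with
    | none =>
      obtain ⟨t, ht⟩ := exists_swap_none hℓ (q := q) u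
      refine ⟨shiftG N t, ((ℓ : ZMod q) * u, ⟨none, fun hd => absurd hd hℓN'⟩), ?_, ?_⟩
      · exact ((eq_coe_of_mapGL_mul (TR_mul_HR_apply hℓ none _)
          (HR_mul_TR_apply hℓ none (u.val : ℤ))).mpr ht.symm).symm
      · change wt χ (HM ℓ none) * ψ u * kap χ (shiftG N t) = ψ ((ℓ : ZMod q) * u) *
          wt χ' (HM ℓ none)
        have h1 := (char_ne h hqN hℓ hℓN).1
        rw [kap_shiftG, wt, wt, HM_none]
        simp only [Matrix.of_apply, Matrix.cons_val', Matrix.cons_val_zero, Matrix.cons_val_one,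
          Matrix.cons_val_fin_one, Int.cast_natCast, Int.cast_one, map_one, mul_one, map_mul]
        rw [h1]
        ring
    | some j =>
      obtain ⟨t, j', ht⟩ := exists_swap_some hℓ (q := q) hne j u
      refine ⟨shiftG N t, (u * (ℓ : ZMod q)⁻¹, ⟨some j', fun _ => by simp⟩), ?_, ?_⟩
      · exact ((eq_coe_of_mapGL_mul (TR_mul_HR_apply hℓ (some j') _)
          (HR_mul_TR_apply hℓ (some j) (u.val : ℤ))).mpr ht.symm).symm
      · change wt χ (HM ℓ (some j)) * ψ u * kap χ (shiftG N t) = ψ (u * (ℓ : ZMod q)⁻¹) *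
          wt χ' (HM ℓ (some j'))
        have h1 := weight_some h hℓ hℓN hqN u
        rw [kap_shiftG, wt, wt, HM_some, HM_some]
        simp only [Matrix.of_apply, Matrix.cons_val', Matrix.cons_val_zero, Matrix.cons_val_one,
          Matrix.cons_val_fin_one, Int.cast_natCast, Int.cast_one, map_one, mul_one, one_mul]
        exact h1
  · rw [Fintype.card_prod, Fintype.card_prod, card_HI, card_HI, if_neg hℓN, if_neg hℓN', mul_comm]

end Equivariance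

end Fermat.Agent.Twist
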